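import Fermat.Agent.LevelLowering.Level.PointTrace
import Fermat.Agent.ModularityLifting.Points.Operators
import Fermat.Agent.ModularityLifting.Points.Coeff
import Fermat.Agent.ModularityLifting.Degeneracy.Bases
import Fermat.Prelude.Def_FLTPrelim_ModularRep
import Mathlib.LinearAlgebra.Matrix.Charpoly.Coeff
import Mathlib.RingTheory.Polynomial.Nilpotent

/-!
# The residual eigenparts at and above a minimal level

Where the residual system is not modular the eigenpart vanishes
(`eigenPart_eq_bot_of_not_residual`), and adding a prime at which the residual Frobenius trace is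
not `± (1 + t)` at most doubles it (`finrank_eigenPart_mul_le`).  Both follow from eigenvectors of
lifted bases: a symbol killed by both traces lies on a form new at `t`.
-/

set_option autoImplicit false

noncomputable section

open IsLocalRing Matrix CongruenceSubgroup Polynomial ModularFormClass

namespace FLTAgent.LevelLowering

open FLTAgent.Density (GalQ Qbar)
open FLTAgent.DefRing FLTAgent.GaloisAttach FLTAgent.HeckePoints FLTAgent.ModularityLifting
  FLTAgent.LevelRaising

section Eigvec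

variable {O : Type} [CommRing O] [IsDomain O] [IsDiscreteValuationRing O]
  [IsAdicComplete (maximalIdeal O) O] [Finite (ResidueField O)] [CharZero O]
  {L : ℕ} {δ : DirichletCharacter O L} {S : Finset ℕ} {a₀ : ℕ → O} {d : ℕ}
  (B : EigenBasis δ S a₀ d) (hS : ∀ q, q.Prime → q ∣ L → q ∈ S)

include hS in
/-- A stable subspace of the coefficient vectors contains an eigenvector; its eigenvalues lie in a
complete discrete valuation ring and lift the residual ones. -/
theorem exists_eigvec_of_stable (U : Submodule (Kbar O) (Fin d → Kbar O)) (hU : U ≠ ⊥)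
    (hstable : ∀ l, l.Prime → ¬ l ∣ L → ∀ v ∈ U, (B.tMat l).map (algebraMap O (Kbar O)) *ᵥ v ∈ U) :
    ∃ (C : Type) (_ : CommRing C) (_ : IsDomain C) (_ : IsDiscreteValuationRing C)
      (_ : IsAdicComplete (maximalIdeal C) C) (_ : Finite (ResidueField C)) (_ : CharZero C)
      (_ : Algebra O C) (_ : Module.Finite O C) (_ : IsLocalHom (algebraMap O C))
      (j : C →+* Kbar O) (v : Fin d → Kbar O) (a : ℕ → C),
      Function.Injective j ∧ (∀ o, j (algebraMap O C o) = algebraMap O (Kbar O) o) ∧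
      v ∈ U ∧ v ≠ 0 ∧
      (∀ l, l.Prime → ¬ l ∣ L →
        tOpChar (Kbar O) (δ.ringHomComp (algebraMap O (Kbar O))) l
            (comb (fun i => mapVal (algebraMap O (Kbar O)) (B.b i)) v) =
          j (a l) • comb (fun i => mapVal (algebraMap O (Kbar O)) (B.b i)) v) ∧
      ∀ l, l.Prime → l ∉ S →
        residue C (a l) = ResidueField.map (algebraMap O C) (residue O (a₀ l)) := by
  classical
  let tm : ℕ → Matrix (Fin d) (Fin d) O := fun l => if l.Prime ∧ ¬ l ∣ L then B.tMat l else 0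
  have htm : ∀ l, l.Prime → ¬ l ∣ L → tm l = B.tMat l := fun l hl hlL => if_pos ⟨hl, hlL⟩
  have hcomm : ∀ l m, tm l * tm m = tm m * tm l := fun l m => by
    simp only [tm]
    split_ifs with h h'
    · exact B.tMat_comm hS h.1 h.2 h'.1 h'.2
    all_goals simp
  let T : Subalgebra O (Matrix (Fin d) (Fin d) O) := Algebra.adjoin O (Set.range tm)
  have : IsMulCommutative T := Algebra.isMulCommutative_adjoin O (by
    rintro _ ⟨l, rfl⟩ _ ⟨m, rfl⟩; exact hcomm l m)
  let : CommRing T := open scoped IsMulCommutative in inferInstance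
  have : Module.Finite O T := Module.Finite.of_injective T.val.toLinearMap Subtype.val_injective
  obtain ⟨s, hs⟩ := Module.Finite.fg_top (R := O) (M := T)
  set φ := algebraMap O (Kbar O)
  let ev : T →+* Module.End (Kbar O) (Fin d → Kbar O) :=
    (Matrix.toLinAlgEquiv' (R := Kbar O)).toRingEquiv.toRingHom.comp
      (φ.mapMatrix.comp T.val.toRingHom)
  have hev : ∀ (t : T) v, ev t v = (t : Matrix (Fin d) (Fin d) O).map φ *ᵥ v := fun t v => rfl
  have hevc : ∀ (t : T) (o : O) v, ev (o • t) v = φ o • ev t v := fun t o v => by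
    rw [hev, hev, ← Matrix.smul_mulVec]
    congr 1
    ext i k
    simp
  have hst : ∀ t : T, ∀ v ∈ U, ev t v ∈ U := by
    rintro ⟨t, ht⟩
    induction ht using Algebra.adjoin_induction with
    | mem x hx =>
      obtain ⟨l, rfl⟩ := hx
      intro v hv
      rw [hev]
      show (tm l).map φ *ᵥ v ∈ U
      simp only [tm]
      split_ifs with h
      · exact hstable l h.1 h.2 v hv
      · simp
    | algebraMap o =>
      intro v hv
      rw [show (⟨_, Subalgebra.algebraMap_mem _ o⟩ : T) = o • (1 : T) from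
        Algebra.algebraMap_eq_smul_one o, hevc, map_one, Module.End.one_apply]
      exact U.smul_mem _ hv
    | add x y hx hy ihx ihy =>
      intro v hv
      rw [show (⟨x + y, _⟩ : T) = ⟨x, hx⟩ + ⟨y, hy⟩ from rfl, map_add, LinearMap.add_apply]
      exact add_mem (ihx v hv) (ihy v hv)
    | mul x y hx hy ihx ihy =>
      intro v hv
      rw [show (⟨x * y, _⟩ : T) = ⟨x, hx⟩ * ⟨y, hy⟩ from rfl, map_mul, Module.End.mul_apply]
      exact ihx _ (ihy v hv)
  obtain ⟨v, hvU, hv0, hve⟩ := exists_common_eigvec (fun t : T => ev t) s U hU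
    (fun t _ => hst t) fun t _ t' _ w _ => by
      rw [← Module.End.mul_apply, ← map_mul, mul_comm, map_mul, Module.End.mul_apply]
  have hall : ∀ t : T, ∃ c : Kbar O, ev t v = c • v := by
    intro t
    have ht : t ∈ Submodule.span O (s : Set T) := hs ▸ Submodule.mem_top
    induction ht using Submodule.span_induction with
    | mem y hy => exact hve y hy
    | zero => exact ⟨0, by rw [map_zero, LinearMap.zero_apply, zero_smul]⟩
    | add y z _ _ hy hz =>
      obtain ⟨c, hc⟩ := hy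
      obtain ⟨c', hc'⟩ := hz
      exact ⟨c + c', by rw [map_add, LinearMap.add_apply, hc, hc', add_smul]⟩
    | smul o y _ hy =>
      obtain ⟨c, hc⟩ := hy
      exact ⟨φ o * c, by rw [hevc, hc, smul_smul]⟩
  have huniq : ∀ c c' : Kbar O, c • v = c' • v → c = c' := fun c c' h =>
    smul_left_injective (Kbar O) hv0 h
  choose ev0 hev0 using hall
  let x : T →ₐ[O] Kbar O :=
    { toFun := ev0
      map_one' := huniq _ _ (by rw [← hev0, map_one, Module.End.one_apply, one_smul])
      map_mul' := fun t t' => huniq _ _ (by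
        rw [← hev0, map_mul, Module.End.mul_apply, hev0, map_smul, hev0, smul_smul, mul_comm])
      map_zero' := huniq _ _ (by rw [← hev0, map_zero, LinearMap.zero_apply, zero_smul])
      map_add' := fun t t' => huniq _ _ (by
        rw [← hev0, map_add, LinearMap.add_apply, hev0, hev0, add_smul])
      commutes' := fun o => huniq _ _ (by
        rw [← hev0, Algebra.algebraMap_eq_smul_one, hevc, map_one, Module.End.one_apply]) }
  obtain ⟨C, iC, iD, iV, iA, iF, iZ, iAlg, iFin, iFree, iL, j, hj, -, hsub⟩ :=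
    exists_coeff O (x '' (s : Set T)) (s.finite_toSet.image x) fun z hz => by
      obtain ⟨t, -, rfl⟩ := hz
      exact (Algebra.IsIntegral.isIntegral (R := O) t).map x
  have hrange : ∀ t, x t ∈ j.range := fun t => by
    have ht : t ∈ Submodule.span O (s : Set T) := hs ▸ Submodule.mem_top
    induction ht using Submodule.span_induction with
    | mem y hy => exact hsub ⟨y, hy, rfl⟩
    | zero => rw [map_zero]; exact zero_mem _
    | add y z _ _ hy hz => rw [map_add]; exact add_mem hy hz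
    | smul o y _ hy => rw [map_smul]; exact Subalgebra.smul_mem _ hy o
  let xC : T →ₐ[O] C :=
    (AlgEquiv.ofInjective j hj).symm.toAlgHom.comp (x.codRestrict j.range hrange)
  have hxC : ∀ t, j (xC t) = x t := fun t =>
    congrArg Subtype.val ((AlgEquiv.ofInjective j hj).apply_symm_apply _)
  let tH : ℕ → T := fun l => ⟨tm l, Algebra.subset_adjoin ⟨l, rfl⟩⟩
  refine ⟨C, iC, iD, iV, iA, iF, iZ, iAlg, iFin, iL, j, v, fun l => xC (tH l), hj,
    j.commutes, hvU, hv0, fun l hl hlL => ?_, fun l hl hlS => ?_⟩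
  · rw [apply_comb φ (tOpChar O δ l) (tOpChar (Kbar O) (δ.ringHomComp φ) l)
      (fun Φ => mapVal_tOpChar φ l Φ) (B.tOp_b hS hl hlL) v, ← htm l hl hlL,
      show (tm l).map φ *ᵥ v = ev (tH l) v from rfl, hev0, map_smul]
    show _ = j (xC (tH l)) • _
    rw [hxC]
    rfl
  · have hlL : ¬ l ∣ L := fun h => hlS (hS l hl h)
    set N : Matrix (Fin d) (Fin d) O := tm l - Matrix.scalar (Fin d) (a₀ l) with hN
    set NT : T := tH l - algebraMap O T (a₀ l) with hNT
    have hval : (NT : Matrix (Fin d) (Fin d) O) = N := rfl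
    have hnil : IsNilpotent ((residue O).mapMatrix N) := by
      rw [hN, htm l hl hlL]
      exact B.isNilpotent_residual hS hl hlS
    have hchar : N.charpoly.map (residue O) = Polynomial.X ^ d := by
      rw [← Matrix.charpoly_map]
      have h := Matrix.isNilpotent_charpoly_sub_pow_of_isNilpotent hnil
      rw [Fintype.card_fin] at h
      exact sub_eq_zero.mp (Polynomial.ext fun m => by
        simpa using (Polynomial.isNilpotent_iff.mp h m).eq_zero)
    have h0 : aeval NT N.charpoly = 0 := Subtype.ext (by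
      have h1 := aeval_algHom_apply T.val NT N.charpoly
      rw [show T.val NT = N from hval, Matrix.aeval_self_charpoly] at h1
      exact h1.symm)
    have h2 := congrArg xC h0
    rw [map_zero, ← aeval_algHom_apply, aeval_def] at h2
    have h3 := congrArg (residue C) h2
    rw [map_zero, hom_eval₂, show (residue C).comp (algebraMap O C) =
      (ResidueField.map (algebraMap O C)).comp (residue O) from
        RingHom.ext fun o => (ResidueField.map_residue _ o).symm, ← eval₂_map, hchar,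
      eval₂_X_pow] at h3
    have hd : d ≠ 0 := fun h => hv0 (funext fun i => (Fin.cast h i).elim0)
    have h4 := (pow_eq_zero_iff hd).mp h3
    rw [hNT, map_sub, xC.commutes, map_sub, sub_eq_zero] at h4
    rw [h4, ResidueField.map_residue]

end Eigvec

section Modular

/-- An eigensymbol congruent to the curve makes it residually modular of that level. -/
theorem isResiduallyModular_of_symbol {p : ℕ} {W : WeierstrassCurve ℤ} {L : ℕ} [NeZero L]
    {K : Type} [Field K] [CharZero K] {C : Type} [CommRing C] [IsLocalRing C]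
    (j : C →+* K) (hj : Function.Injective j) {Φ : Cusp → Cusp → K} (hΦ : Φ ∈ Lev K L)
    (hΦ0 : Φ ≠ 0) (c : ℕ → C) (ha : ∀ l, l.Prime → ¬ l ∣ L → tOp K l Φ = j (c l) • Φ)
    (hpC : (p : C) ∈ maximalIdeal C) [Fact p.Prime]
    (hne : ∃ ℓ, ℓ.Prime ∧ ¬ ℓ ∣ L ∧ ℓ % L = 1 % L ∧ j (c ℓ) ≠ 1 + ℓ)
    (hW : ∀ ℓ, ℓ.Prime → W.IsGoodPrimeFor ℓ → ¬ ℓ ∣ L → ℓ ≠ p →
      residue C (c ℓ) = (W.apOfModel ℓ : ResidueField C)) :
    W.IsResiduallyModularOfLevel p L := by
  classical
  obtain ⟨F, e, Φ₀, rfl, hcF⟩ := exists_complex_symbol (fun l => j (c l)) Φ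
  have h0 : Φ₀ ≠ 0 := fun h => hΦ0 (by rw [h, mapVal_zero])
  have hΨ : mapVal e Φ₀ ∈ Lev ℂ L := mapVal_mem_lev e (mem_lev_of_mapVal hΦ)
  have hmem : ∀ l, l.Prime → l ∉ L.primeFactors → ¬ l ∣ L := fun l hl h hd =>
    h (Nat.mem_primeFactors.mpr ⟨hl, hd, NeZero.ne L⟩)
  obtain ⟨ℓ₀, hℓ₀, hℓ₀L, hmod, hℓ₀a⟩ := hne
  obtain ⟨f, hf, hfa⟩ := exists_eigenform_of_symb L.primeFactors
    (fun l hl h => Nat.mem_primeFactors.mpr ⟨hl, h, NeZero.ne L⟩) (fun l => e ⟨j (c l), hcF l⟩) hΨ
    (fun h => h0 ((mapVal_eq_zero_iff e.injective).mp h))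
    (fun l hl hlS => eigen_transfer e _ (hcF l) (ha l hl (hmem l hl hlS)))
    ⟨ℓ₀, hℓ₀, fun h => hℓ₀L (Nat.dvd_of_mem_primeFactors h), hmod, fun h => hℓ₀a (by
      simp only [← map_natCast e, ← map_one e, ← map_add] at h
      simpa using congrArg F.subtype (e.injective h))⟩
  -- the algebraic integers which are values of the system
  let B : Subring C := F.toSubring.comap j
  let ι : B →+* ℂ := e.comp ((j.comp B.subtype).codRestrict F fun x => x.2)
  have hι : Function.Injective ι :=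
    e.injective.comp fun x y h => Subtype.ext (hj (congrArg Subtype.val h))
  let R₀ : Subring (integralClosure ℤ ℂ) :=
    ι.range.comap (integralClosure ℤ ℂ).val.toRingHom
  choose b hb using fun x : R₀ => x.2
  let ν : R₀ →+* ResidueField C := (residue C).comp (B.subtype.comp
    { toFun := b
      map_one' := hι (by rw [hb, map_one]; rfl)
      map_mul' := fun x y => hι (by rw [hb, map_mul, hb, hb]; rfl)
      map_zero' := hι (by rw [hb, map_zero]; rfl)
      map_add' := fun x y => hι (by rw [hb, map_add, hb, hb]; rfl) })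
  have : (RingHom.ker ν).IsPrime := RingHom.ker_isPrime ν
  have : Algebra.IsIntegral R₀ (integralClosure ℤ ℂ) := Algebra.IsIntegral.tower_top ℤ
  obtain ⟨Q, -, hQ, hQc⟩ := Ideal.exists_ideal_over_prime_of_isIntegral_of_isPrime
    (RingHom.ker ν) (⊥ : Ideal (integralClosure ℤ ℂ)) (fun x hx => by
      rw [Ideal.mem_comap, Ideal.mem_bot] at hx
      rw [show x = 0 from Subtype.ext hx]
      exact zero_mem _)
  have := hQ
  have hQν : ∀ x : R₀, (x : integralClosure ℤ ℂ) ∈ Q ↔ ν x = 0 := fun x => by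
    rw [← RingHom.mem_ker, ← hQc]; rfl
  have hpR : (p : integralClosure ℤ ℂ) ∈ Q := by
    have h := (hQν (p : R₀)).mpr (by
      rw [map_natCast, ← map_natCast (residue C), residue_eq_zero_iff]; exact hpC)
    simpa using h
  have hmax : Q.IsMaximal := by
    refine Ideal.isMaximal_of_isIntegral_of_isMaximal_comap (R := ℤ) Q ?_
    have hp : Prime (p : ℤ) := Nat.prime_iff_prime_int.mp Fact.out
    have hmax : (Ideal.span {(p : ℤ)}).IsMaximal :=
      PrincipalIdealRing.isMaximal_of_irreducible hp.irreducible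
    have hle : Ideal.span {(p : ℤ)} ≤ Q.comap (algebraMap ℤ (integralClosure ℤ ℂ)) :=
      (Ideal.span_singleton_le_iff_mem _).mpr (by rw [Ideal.mem_comap, map_natCast]; exact hpR)
    rw [← hmax.eq_of_le (Ideal.comap_ne_top _ hQ.ne_top) hle]
    exact hmax
  refine ⟨f, Q, hf, hmax, hpR, fun ℓ hℓ hgood hℓL hℓp => ?_⟩
  have hqc := hfa ℓ hℓ fun h => hℓL (Nat.dvd_of_mem_primeFactors h)
  let a : integralClosure ℤ ℂ :=
    ⟨qCoeff f ℓ, Eigenforms.isIntegral_qCoeff (MFIntegral.hasIntegralStructure L 2) hf ℓ⟩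
  let cB : B := ⟨c ℓ, hcF ℓ⟩
  have haR : a ∈ R₀ := ⟨cB, hqc.symm⟩
  refine ⟨a, rfl, ?_⟩
  have h := (hQν (⟨a, haR⟩ - (W.apOfModel ℓ : R₀))).mpr (by
    rw [map_sub, map_intCast, sub_eq_zero, ← hW ℓ hℓ hgood hℓL hℓp]
    exact congrArg (residue C)
      (congrArg Subtype.val (hι ((hb ⟨a, haR⟩).trans (show _ = ι cB from hqc)))))
  simpa using h

end Modular

section Lowering

variable {p : ℕ} [Fact p.Prime] {O : Type} [CommRing O] [IsDomain O] [IsDiscreteValuationRing O]
  [IsAdicComplete (maximalIdeal O) O] [Finite (ResidueField O)] [CharZero O]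
  [CharP (ResidueField O) p] (R : ResidualRep p (ResidueField O)) {S : Finset ℕ} {a : ℕ → O}

omit [Fact (Nat.Prime p)] [IsAdicComplete (maximalIdeal O) O] [Finite (ResidueField O)]
  [CharZero O] in
theorem mem_maximalIdeal_of_charP : (p : O) ∈ maximalIdeal O := by
  rw [← residue_eq_zero_iff, map_natCast, CharP.cast_eq_zero]

omit [IsAdicComplete (maximalIdeal O) O] [Finite (ResidueField O)] [CharZero O] in
theorem exists_ne_eisenstein (hp2 : p ≠ 2) {L : ℕ} [NeZero L]
    (ha : ∀ l, l.Prime → l ∉ S → ∀ P : ValuationSubring Qbar, P.LiesOverPrime l →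
      ∀ φ, P.IsFrobeniusAt φ l → residue O (a l) = (R.rep φ).trace) :
    ∃ ℓ, ℓ.Prime ∧ ℓ ∉ S ∧ ℓ % L = 1 % L ∧ residue O (a ℓ) ≠ residue O (1 + ℓ) := by
  obtain ⟨ℓ, hℓ, hℓS, hmod, h⟩ := R.exists_ne_one_add hp2 S (NeZero.ne L)
  obtain ⟨P, hP⟩ := Density.exists_liesOverPrime hℓ
  obtain ⟨φ, hφ⟩ := Density.exists_isFrobeniusAt P hℓ hP
  exact ⟨ℓ, hℓ, hℓS, hmod, fun he => h P hP φ hφ (by
    rw [← ha ℓ hℓ hℓS P hP φ hφ, he, map_add, map_one, map_natCast])⟩

/-- A nonzero residual eigenpart of trivial character gives an eigensymbol over the algebraic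
closure whose eigenvalues lie in a complete discrete valuation ring and lift the residual ones. -/
theorem exists_eigensymbol_of_ne_bot (hp2 : p ≠ 2) {L : ℕ} [NeZero L]
    (hell : p = 3 → ∃ s, s.Prime ∧ s ∣ L ∧ s % 3 = 2) (hS : ∀ q, q.Prime → q ∣ L * p → q ∈ S)
    (hne : ∃ ℓ, ℓ.Prime ∧ ℓ ∉ S ∧ ℓ % L = 1 % L ∧ residue O (a ℓ) ≠ residue O (1 + ℓ))
    (hbot : eigenPart (ResidueField O) (1 : DirichletCharacter (ResidueField O) L) S
      (residue O ∘ a) ≠ ⊥) :
    ∃ (C : Type) (_ : CommRing C) (_ : IsDomain C) (_ : IsDiscreteValuationRing C)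
      (_ : IsAdicComplete (maximalIdeal C) C) (_ : Finite (ResidueField C)) (_ : CharZero C)
      (_ : Algebra O C) (_ : Module.Finite O C) (_ : IsLocalHom (algebraMap O C))
      (j : C →+* Kbar O) (Φ : Cusp → Cusp → Kbar O) (c : ℕ → C),
      Function.Injective j ∧ (p : C) ∈ maximalIdeal C ∧ Φ ∈ Lev (Kbar O) L ∧ Φ ≠ 0 ∧
      (∀ l, l.Prime → ¬ l ∣ L → tOp (Kbar O) l Φ = j (c l) • Φ) ∧
      ∀ l, l.Prime → l ∉ S →
        residue C (c l) = ResidueField.map (algebraMap O C) (residue O (a l)) := by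
  classical
  have hSL : ∀ q, q.Prime → q ∣ L → q ∈ S := fun q hq h => hS q hq (h.mul_right p)
  obtain ⟨B, -⟩ := exists_eigenBasis_of_hell p (δ := (1 : DirichletCharacter O L)) hp2 hell
    (fun u => ⟨0, by simp⟩) hS hne
  rw [MulChar.ringHomComp_one] at B
  set V := eigenPart (ResidueField O) (1 : DirichletCharacter (ResidueField O) L) S (residue O ∘ a)
  have : Module.Finite (ResidueField O) V :=
    haveI := finite_symbChar (R := ResidueField O) (1 : DirichletCharacter (ResidueField O) L)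
    Module.Finite.of_injective
      (Submodule.inclusion (fun v hv => ((mem_eigenPart_iff hSL).mp hv).1 :
        _ ≤ SymbChar (ResidueField O) (1 : DirichletCharacter (ResidueField O) L)))
      (Submodule.inclusion_injective _)
  set d := Module.finrank (ResidueField O) V
  have hd : 0 < d := by
    have := Submodule.nontrivial_iff_ne_bot.mpr hbot
    exact Module.finrank_pos
  set K := Kbar O
  have hU : (⊤ : Submodule K (Fin d → K)) ≠ ⊥ := fun h => by
    have h1 := congrArg (fun U : Submodule K (Fin d → K) => Module.finrank K U) h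
    simp only [finrank_top, Module.finrank_fin_fun, finrank_bot] at h1
    omega
  obtain ⟨C, _, _, _, _, _, _, _, _, _, j, v, c, hj, -, -, hv0, heig, hres⟩ :=
    exists_eigvec_of_stable B hSL ⊤ hU fun _ _ _ _ _ => trivial
  refine ⟨C, inferInstance, inferInstance, inferInstance, inferInstance, inferInstance,
    inferInstance, inferInstance, inferInstance, inferInstance, j,
    comb (fun i => mapVal (algebraMap O K) (B.b i)) v, c, hj, ?_, ?_, ?_, fun l hl hlL => ?_, hres⟩
  · rw [← map_natCast (algebraMap O C)]; exact map_nonunit _ _ mem_maximalIdeal_of_charP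
  · rw [HeckePoints.comb_apply]
    exact Submodule.sum_mem _ fun i _ => Submodule.smul_mem _ _
      (mapVal_mem_lev _ (by rw [← symbChar_eq_lev]; exact B.mem_symbChar i))
  · exact fun h0 => hv0 (comb_injective B.isUnit_det _
      (h0.trans (map_zero (comb fun i => mapVal (algebraMap O K) (B.b i))).symm))
  · have h := heig l hl hlL
    rwa [MulChar.ringHomComp_one, tOpChar_one hl hlL] at h

section Doubling

variable {N t d d₀ : ℕ} (D : ALData N t)

omit [Fact p.Prime] [IsAdicComplete (maximalIdeal O) O] [Finite (ResidueField O)] [CharZero O]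
  [CharP (ResidueField O) p] in
/-- A map to level `N` commuting with the Hecke operators is given by a matrix in bases of the
eigenparts. -/
private theorem exists_levelMatrix {L : ℕ} (B : EigenBasis (1 : DirichletCharacter O L) S a d)
    (B₀ : EigenBasis (1 : DirichletCharacter O N) S a d₀) (hL : ∀ q, q.Prime → q ∣ L → q ∈ S)
    (hN : ∀ q, q.Prime → q ∣ N → q ∈ S) (f : (Cusp → Cusp → O) →ₗ[O] (Cusp → Cusp → O))
    (hf : ∀ Φ ∈ Lev O L, f Φ ∈ Lev O N)
    (hc : ∀ l, l.Prime → l ∉ S → ∀ Φ ∈ Lev O L, tOp O l (f Φ) = f (tOp O l Φ)) :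
    ∃ G : Matrix (Fin d₀) (Fin d) O, ∀ i, f (B.b i) = comb B₀.b (G.col i) := by
  choose G hG using fun i => B₀.span _ (Degeneracy.map_mem_eigenPart hL hN f (fun Φ h => by
      rw [symbChar_eq_lev] at h ⊢; exact hf Φ h)
    (fun l hl hlS Φ h => by
      rw [symbChar_eq_lev] at h
      rw [tOpChar_one hl fun hd => hlS (hN l hl hd), tOpChar_one hl fun hd => hlS (hL l hl hd)]
      exact hc l hl hlS Φ h) (B.mem i))
  exact ⟨Matrix.of fun i k => G k i, fun i => (hG i).symm⟩

omit [IsDomain O] [IsDiscreteValuationRing O] [IsAdicComplete (maximalIdeal O) O]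
  [Finite (ResidueField O)] [CharZero O] [CharP (ResidueField O) p] [Fact p.Prime] in
/-- The effect of a map between two families on a combination after a change of coefficients. -/
private theorem map_comb {K : Type} [CommRing K] (φ : O →+* K) (b : Fin d → Cusp → Cusp → O)
    (b₀ : Fin d₀ → Cusp → Cusp → O) {f : (Cusp → Cusp → O) →ₗ[O] (Cusp → Cusp → O)}
    {f' : (Cusp → Cusp → K) →ₗ[K] (Cusp → Cusp → K)}
    (hff : ∀ Φ, mapVal φ (f Φ) = f' (mapVal φ Φ)) {G : Matrix (Fin d₀) (Fin d) O}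
    (hG : ∀ i, f (b i) = comb b₀ (G.col i)) (v : Fin d → K) :
    f' (comb (fun i => mapVal φ (b i)) v) = comb (fun i => mapVal φ (b₀ i)) (G.map φ *ᵥ v) := by
  rw [HeckePoints.comb_apply, map_sum]
  simp only [map_smul, ← hff, hG, HeckePoints.comb_apply]
  funext x y
  simp only [mapVal, Finset.sum_apply, Pi.smul_apply, smul_eq_mul, map_sum, map_mul,
    Matrix.mulVec, dotProduct, Matrix.map_apply, Finset.mul_sum, Finset.sum_mul,
    Matrix.col, Matrix.transpose_apply]
  rw [Finset.sum_comm]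
  exact Finset.sum_congr rfl fun i _ => Finset.sum_congr rfl fun k _ => by ring

/-- The coefficient vectors of the symbols killed by both traces. -/
private def killedSpace (b : Fin d → Cusp → Cusp → O) : Submodule (Kbar O) (Fin d → Kbar O) :=
  LinearMap.ker (D.trOp (Kbar O) ∘ₗ comb fun i => mapVal (algebraMap O (Kbar O)) (b i)) ⊓
    LinearMap.ker ((D.trOp (Kbar O) ∘ₗ D.wOp (Kbar O)) ∘ₗ
      comb fun i => mapVal (algebraMap O (Kbar O)) (b i))

omit [IsAdicComplete (maximalIdeal O) O] [Finite (ResidueField O)] [CharZero O] in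
/-- If the eigenpart more than doubles, some combination is killed by both traces. -/
private theorem killedSpace_ne_bot (ht : t.Prime) (htN : ¬ t ∣ N)
    (B : EigenBasis (1 : DirichletCharacter O (N * t)) S a d)
    (B₀ : EigenBasis (1 : DirichletCharacter O N) S a d₀)
    (hS : ∀ q, q.Prime → q ∣ N * t → q ∈ S) (hd : 2 * d₀ < d) : killedSpace D B.b ≠ ⊥ := by
  set K := Kbar O
  set φ := algebraMap O K
  have hN : ∀ q, q.Prime → q ∣ N → q ∈ S := fun q hq h => hS q hq (h.mul_right t)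
  obtain ⟨G, hG⟩ := exists_levelMatrix B B₀ hS hN (D.trOp O) (fun _ h => D.trOp_mem ht htN h)
    (fun l hl hlS _ h => D.tOp_trOp ht hl (fun hd => hlS (hS l hl hd)) h)
  obtain ⟨G', hG'⟩ := exists_levelMatrix B B₀ hS hN (D.trOp O ∘ₗ D.wOp O)
    (fun _ h => D.trOp_mem ht htN (D.wOp_mem ht h)) fun l hl hlS _ h => by
      have hlN : ¬ l ∣ N * t := fun hd => hlS (hS l hl hd)
      rw [LinearMap.comp_apply, LinearMap.comp_apply, D.tOp_trOp ht hl hlN (D.wOp_mem ht h),
        D.tOp_wOp ht hl hlN h]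
  have htr : ∀ Φ, mapVal φ (D.trOp O Φ) = D.trOp K (mapVal φ Φ) := fun Φ => by
    funext x y
    simp [mapVal, ALData.trOp, ALData.wOp, uOp, pullFam_apply, Finset.sum_apply, pull_apply]
  have hw : ∀ Φ, mapVal φ (D.wOp O Φ) = D.wOp K (mapVal φ Φ) := fun Φ => by
    funext x y
    simp [mapVal, ALData.wOp, pull_apply]
  intro hbot
  have hinj : Function.Injective ((Matrix.mulVecLin (G.map φ)).prod
      (Matrix.mulVecLin (G'.map φ))) := LinearMap.ker_eq_bot.mp <| eq_bot_iff.mpr fun v hv => by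
    obtain ⟨h1, h2⟩ := Prod.mk_eq_zero.mp (LinearMap.mem_ker.mp hv)
    rw [Matrix.mulVecLin_apply] at h1 h2
    rw [← hbot]
    refine ⟨LinearMap.mem_ker.mpr ?_, LinearMap.mem_ker.mpr ?_⟩
    · rw [LinearMap.comp_apply, map_comb φ B.b B₀.b htr hG, h1, map_zero]
    · rw [LinearMap.comp_apply, map_comb φ B.b B₀.b (f := D.trOp O ∘ₗ D.wOp O)
        (fun Φ => by rw [LinearMap.comp_apply, LinearMap.comp_apply, htr, hw]) hG', h2, map_zero]
  have h1 := LinearMap.finrank_le_finrank_of_injective hinj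
  simp only [Module.finrank_prod, Module.finrank_fin_fun] at h1
  omega

/-- An eigensymbol killed by both traces whose eigenvalues lift the residual ones. -/
private theorem exists_killed_eigensymbol [NeZero (N * t)] (ht : t.Prime)
    (B : EigenBasis (1 : DirichletCharacter O (N * t)) S a d)
    (hS : ∀ q, q.Prime → q ∣ N * t → q ∈ S) (hne : killedSpace D B.b ≠ ⊥) :
    ∃ (C : Type) (_ : CommRing C) (_ : IsDomain C) (_ : IsDiscreteValuationRing C)
      (_ : IsAdicComplete (maximalIdeal C) C) (_ : Finite (ResidueField C)) (_ : CharZero C)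
      (_ : Algebra O C) (_ : Module.Finite O C) (_ : IsLocalHom (algebraMap O C))
      (j : C →+* Kbar O) (Φ : Cusp → Cusp → Kbar O) (c : ℕ → C),
      Function.Injective j ∧ Φ ∈ Lev (Kbar O) (N * t) ∧ Φ ≠ 0 ∧
      D.trOp (Kbar O) Φ = 0 ∧ D.trOp (Kbar O) (D.wOp (Kbar O) Φ) = 0 ∧
      (∀ l, l.Prime → l ∉ S → tOp (Kbar O) l Φ = j (c l) • Φ) ∧
      ∀ l, l.Prime → l ∉ S →
        residue C (c l) = ResidueField.map (algebraMap O C) (residue O (a l)) := by
  set K := Kbar O
  set φ := algebraMap O K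
  set b' : Fin d → Cusp → Cusp → K := fun i => mapVal φ (B.b i)
  have hlev : ∀ v, comb b' v ∈ Lev K (N * t) := fun v => by
    rw [HeckePoints.comb_apply]
    exact Submodule.sum_mem _ fun i _ => Submodule.smul_mem _ _
      (mapVal_mem_lev φ (by rw [← symbChar_eq_lev]; exact B.mem_symbChar i))
  obtain ⟨C, _, _, _, _, _, _, _, _, _, j, v, c, hj, -, ⟨hv1, hv2⟩, hv0, heig, hres⟩ :=
    exists_eigvec_of_stable B hS (killedSpace D B.b) hne fun l hl hlN v hv => by
      obtain ⟨h1, h2⟩ := hv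
      simp only [SetLike.mem_coe, LinearMap.mem_ker, LinearMap.comp_apply] at h1 h2
      have e : comb b' ((B.tMat l).map φ *ᵥ v) = tOp K l (comb b' v) := by
        rw [← apply_comb φ (tOpChar O 1 l)
          (tOpChar K ((1 : DirichletCharacter O (N * t)).ringHomComp φ) l)
          (fun Φ => mapVal_tOpChar φ l Φ) (B.tOp_b hS hl hlN) v, MulChar.ringHomComp_one,
          tOpChar_one hl hlN]
      refine ⟨LinearMap.mem_ker.mpr ?_, LinearMap.mem_ker.mpr ?_⟩
      · rw [LinearMap.comp_apply, e, ← D.tOp_trOp ht hl hlN (hlev v), h1, map_zero]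
      · rw [LinearMap.comp_apply, LinearMap.comp_apply, e, ← D.tOp_wOp ht hl hlN (hlev v),
          ← D.tOp_trOp ht hl hlN (D.wOp_mem ht (hlev v)), h2, map_zero]
  refine ⟨C, inferInstance, inferInstance, inferInstance, inferInstance, inferInstance,
    inferInstance, inferInstance, inferInstance, inferInstance, j, comb b' v, c, hj, hlev v,
    fun h0 => hv0 (comb_injective B.isUnit_det φ (h0.trans (map_zero (comb b')).symm)),
    hv1, hv2, fun l hl hlS => ?_, hres⟩
  have h := heig l hl fun hd => hlS (hS l hl hd)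
  rwa [MulChar.ringHomComp_one, tOpChar_one hl fun hd => hlS (hS l hl hd)] at h

omit [Fact p.Prime] [IsDomain O] [IsDiscreteValuationRing O] [IsAdicComplete (maximalIdeal O) O]
  [Finite (ResidueField O)] [CharZero O] [CharP (ResidueField O) p] in
/-- An eigensymbol killed by both traces gives one which is an eigenvector of `U` of sign `±1`. -/
private theorem exists_signed_eigensymbol {K : Type} [CommRing K] (ht : t.Prime)
    {Φ : Cusp → Cusp → K} (hΦ : Φ ∈ Lev K (N * t)) (hΦ0 : Φ ≠ 0) (h1 : D.trOp K Φ = 0)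
    (h2 : D.trOp K (D.wOp K Φ) = 0) (hS : ∀ q, q.Prime → q ∣ N * t → q ∈ S) (c : ℕ → K)
    (hΦa : ∀ l, l.Prime → l ∉ S → tOp K l Φ = c l • Φ) :
    ∃ (ε : K) (Φ' : Cusp → Cusp → K), ε ^ 2 = 1 ∧ Φ' ≠ 0 ∧ Φ' ∈ Lev K (N * t) ∧
      uOp K t Φ' = ε • Φ' ∧ ∀ l, l.Prime → l ∉ S → tOp K l Φ' = c l • Φ' := by
  have hUw : ∀ Ψ ∈ Lev K (N * t), D.trOp K (D.wOp K Ψ) = 0 → uOp K t Ψ = -D.wOp K Ψ :=
    fun Ψ hΨ h => by
      simp only [ALData.trOp, LinearMap.add_apply, LinearMap.id_apply, LinearMap.comp_apply,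
        D.wOp_wOp ht hΨ] at h
      exact eq_neg_of_add_eq_zero_right h
  have hUΦ : uOp K t (uOp K t Φ) = Φ := by
    rw [hUw _ hΦ h2, map_neg, hUw _ (D.wOp_mem ht hΦ) (by rw [D.wOp_wOp ht hΦ]; exact h1),
      D.wOp_wOp ht hΦ, neg_neg]
  by_cases h : Φ + uOp K t Φ = 0
  · exact ⟨-1, Φ, neg_one_sq, hΦ0, hΦ,
      by rw [neg_one_smul]; exact eq_neg_of_add_eq_zero_right h, hΦa⟩
  · refine ⟨1, Φ + uOp K t Φ, one_pow 2, h,
      add_mem hΦ (uOp_mem ht (dvd_mul_left t N) hΦ), ?_, fun l hl hlS => ?_⟩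
    · rw [map_add, hUΦ, one_smul, add_comm]
    · rw [map_add, hΦa l hl hlS, smul_add, hUw _ hΦ h2, map_neg,
        D.tOp_wOp ht hl (fun hd => hlS (hS l hl hd)) hΦ, hΦa l hl hlS, map_smul, smul_neg]

variable {C : Type} [CommRing C] [IsDomain C] [IsDiscreteValuationRing C]
  [IsAdicComplete (maximalIdeal C) C] [Finite (ResidueField C)] [CharZero C] [Algebra O C]
  [Module.Finite O C] [IsLocalHom (algebraMap O C)]

omit [Finite (ResidueField O)] [Finite (ResidueField C)] [CharZero C] in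
/-- An eigensymbol lifting the residual system gives a representation. -/
private theorem exists_rep_of_eigensymbol (hp2 : p ≠ 2) (hpC : (p : C) ∈ maximalIdeal C)
    (hpS : p ∈ S) {L : ℕ} [NeZero L] (hS : ∀ q, q.Prime → q ∣ L → q ∈ S) {j : C →+* Kbar O}
    (hj : Function.Injective j) {Φ : Cusp → Cusp → Kbar O} (hΦ : Φ ∈ Lev (Kbar O) L)
    (hΦ0 : Φ ≠ 0) {c : ℕ → C} (hΦa : ∀ l, l.Prime → l ∉ S → tOp (Kbar O) l Φ = j (c l) • Φ)
    (hres : ∀ l, l.Prime → l ∉ S → ∀ P : ValuationSubring Qbar, P.LiesOverPrime l →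
      ∀ σ, P.IsFrobeniusAt σ l →
        residue C (c l) = ResidueField.map (algebraMap O C) (R.rep σ).trace) :
    ∃ ρ : MatRep C, MatCont ρ ∧ (∀ σ, (ρ σ).det = cycChar hpC σ) ∧
      (∀ l, l.Prime → l ∉ S → ∀ P : ValuationSubring Qbar, P.LiesOverPrime l →
        ∀ σ, P.IsFrobeniusAt σ l → (ρ σ).trace = c l) ∧
      mapRep (residue C) ρ = mapRep (ResidueField.map (algebraMap O C)) R.rep := by
  obtain ⟨f, hf, -⟩ := exists_point_newform (hpC := hpC) j hj ∅ (by simp)
    (fun t => (1 : DirichletCharacter C t)) (by simp) (M := L) (NeZero.ne _) (by simp)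
    (L := L) (by simp) (1 : DirichletCharacter C L)
    (fun x hx => by rw [MulChar.one_apply hx, Finset.prod_empty]) S hpS hS c
    (by rw [MulChar.ringHomComp_one, symbChar_eq_lev]; exact hΦ) hΦ0
    (fun l hl hlS => by
      rw [MulChar.ringHomComp_one, tOpChar_one hl fun hd => hlS (hS l hl hd)]
      exact hΦa l hl hlS)
    hp2 R (ResidueField.map (algebraMap O C)) S subset_rfl (fun l hl hlS P hP σ hσ => by
      rw [Finset.prod_empty, one_mul]; exact hres l hl hlS P hP σ hσ)
  simp only [Finset.prod_empty, one_mul] at hf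
  obtain ⟨ρ, hρ, hdet, htrρ, hρres⟩ := hf.exists_rep hp2 hpS mem_maximalIdeal_of_charP R hres
  exact ⟨ρ, hρ, hdet, fun l hl hlS P hP σ hσ => by rw [htrρ, hf.frob l hl hlS P hP σ hσ], hρres⟩

omit [Finite (ResidueField O)] [Finite (ResidueField C)] in
/-- An eigensymbol of sign `±1` at `t` forces the residual Frobenius trace at `t` to be
`± (1 + t)`. -/
private theorem sq_trace_eq_of_uOp_sq [NeZero N] (hp2 : p ≠ 2) (hpC : (p : C) ∈ maximalIdeal C)
    (ht : t.Prime) (htp : t ≠ p) (htN : ¬ t ∣ N) (hS : ∀ q, q.Prime → q ∣ N * t * p → q ∈ S)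
    {j : C →+* Kbar O} (hj : Function.Injective j) {Φ : Cusp → Cusp → Kbar O}
    (hΦ : Φ ∈ Lev (Kbar O) (N * t)) (hΦ0 : Φ ≠ 0) {ε : Kbar O} (hε : ε ^ 2 = 1)
    (hU : uOp (Kbar O) t Φ = ε • Φ) {c : ℕ → C}
    (hΦa : ∀ l, l.Prime → l ∉ S → tOp (Kbar O) l Φ = j (c l) • Φ)
    (hres : ∀ l, l.Prime → l ∉ S → ∀ P : ValuationSubring Qbar, P.LiesOverPrime l →
      ∀ σ, P.IsFrobeniusAt σ l →
        residue C (c l) = ResidueField.map (algebraMap O C) (R.rep σ).trace)
    {P : ValuationSubring Qbar} (hP : P.LiesOverPrime t) {σ : GalQ} (hσ : P.IsFrobeniusAt σ t) :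
    (R.rep σ).trace ^ 2 = (1 + (t : ResidueField O)) ^ 2 := by
  have : NeZero (N * t) := ⟨mul_ne_zero (NeZero.ne N) ht.ne_zero⟩
  have : CharZero (Kbar O) := charZero_of_injective_ringHom (algebraMap_kbar_injective O)
  have hSNt : ∀ q, q.Prime → q ∣ N * t → q ∈ S := fun q hq h => hS q hq (h.mul_right p)
  have hpS : p ∈ S := hS p Fact.out (dvd_mul_left p _)
  set ι := ResidueField.map (algebraMap O C)
  obtain ⟨ρ, hρ, hdet, hfrob, hρres⟩ :=
    exists_rep_of_eigensymbol R hp2 hpC hpS hSNt hj hΦ hΦ0 hΦa hres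
  obtain ⟨ℓ, hℓ, hℓS, hmod, hℓR⟩ := R.exists_ne_one_add hp2 S (NeZero.ne (N * t))
  obtain ⟨Pℓ, hPℓ⟩ := Density.exists_liesOverPrime hℓ
  obtain ⟨φℓ, hφℓ⟩ := Density.exists_isFrobeniusAt Pℓ hℓ hPℓ
  obtain ⟨M, g, F, e, hM, htM, hg, hcoeff⟩ := exists_newform_of_uOp_sq ht htN hΦ hΦ0 S hSNt
    (fun l => j (c l)) hΦa hU hε ⟨ℓ, hℓ, hℓS, hmod, fun he => hℓR Pℓ hPℓ φℓ hφℓ (ι.injective (by
      rw [← hres ℓ hℓ hℓS Pℓ hPℓ φℓ hφℓ,
        show c ℓ = 1 + ℓ from hj (by rw [he, map_add, map_one, map_natCast])]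
      simp only [map_add, map_one, map_natCast]))⟩
  have : NeZero M := ⟨fun h => NeZero.ne (N * t) (by rw [h] at hM; exact zero_dvd_iff.mp hM)⟩
  have hON := onNewform_of_coeff j hj hg hpS (fun q hq hqM => hSNt q hq (hqM.trans hM)) hρ hdet e c
    hcoeff hfrob
  obtain ⟨e', he', hst⟩ := hON.steinbergAt hp2 (by rw [hρres]; exact absIrreducibleOn_map ι R.irr)
    ht htp htM fun h2 => htN <| by
      have h3 := h2.trans hM
      rw [pow_two] at h3
      exact (Nat.mul_dvd_mul_iff_right ht.pos).mp h3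
  refine ι.injective ?_
  have h1 : (mapRep (residue C) ρ σ).trace = residue C (ρ σ).trace :=
    (AddMonoidHom.map_trace (residue C).toAddMonoidHom _).symm
  rw [hρres, (hst P hP).2 σ hσ,
    show (mapRep ι R.rep σ).trace = ι (R.rep σ).trace from
      (AddMonoidHom.map_trace ι.toAddMonoidHom _).symm] at h1
  rw [map_pow, h1]
  rcases he' with rfl | rfl <;>
  · simp only [Int.cast_one, Int.cast_neg, map_mul, map_neg, map_add, map_one, map_natCast, map_pow]
    ring

end Doubling

variable (ha : ∀ l, l.Prime → l ∉ S → ∀ P : ValuationSubring Qbar, P.LiesOverPrime l →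
  ∀ φ, P.IsFrobeniusAt φ l → residue O (a l) = (R.rep φ).trace)
include ha

/-- **Adding a prime at most doubles the eigenpart.** -/
theorem finrank_eigenPart_mul_le (hp2 : p ≠ 2) {N t : ℕ} [NeZero N]
    (ht : t.Prime) (htp : t ≠ p) (htN : ¬ t ∣ N)
    (hell : p = 3 → ∃ s, s.Prime ∧ s ∣ N ∧ s % 3 = 2)
    (hS : ∀ q, q.Prime → q ∣ N * t * p → q ∈ S)
    (htt : ∀ P : ValuationSubring Qbar, P.LiesOverPrime t → ∀ φ, P.IsFrobeniusAt φ t →
      (R.rep φ).trace ^ 2 ≠ (1 + (t : ResidueField O)) ^ 2) :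
    Module.finrank (ResidueField O)
        (eigenPart (ResidueField O) (1 : DirichletCharacter (ResidueField O) (N * t)) S
          (residue O ∘ a)) ≤
      2 * Module.finrank (ResidueField O)
        (eigenPart (ResidueField O) (1 : DirichletCharacter (ResidueField O) N) S
          (residue O ∘ a)) := by
  classical
  have : NeZero (N * t) := ⟨mul_ne_zero (NeZero.ne N) ht.ne_zero⟩
  have hSNt : ∀ q, q.Prime → q ∣ N * t → q ∈ S := fun q hq h => hS q hq (h.mul_right p)
  obtain ⟨B, -⟩ := exists_eigenBasis_of_hell p (δ := (1 : DirichletCharacter O (N * t))) hp2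
    (fun h => by obtain ⟨s, hs, hsN, hs3⟩ := hell h; exact ⟨s, hs, hsN.mul_right t, hs3⟩)
    (fun u => ⟨0, by simp⟩) hS (exists_ne_eisenstein R hp2 ha)
  obtain ⟨B₀, -⟩ := exists_eigenBasis_of_hell p (δ := (1 : DirichletCharacter O N)) hp2 hell
    (fun u => ⟨0, by simp⟩) (fun q hq h => hS q hq (by
      rcases hq.dvd_mul.mp h with h | h
      · exact (h.mul_right t).mul_right p
      · exact h.mul_left _))
    (exists_ne_eisenstein R hp2 ha)
  rw [MulChar.ringHomComp_one] at B B₀
  set d := Module.finrank (ResidueField O)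
    (eigenPart (ResidueField O) (1 : DirichletCharacter (ResidueField O) (N * t)) S (residue O ∘ a))
  set d₀ := Module.finrank (ResidueField O)
    (eigenPart (ResidueField O) (1 : DirichletCharacter (ResidueField O) N) S (residue O ∘ a))
  obtain ⟨D⟩ := exists_alData ht htN
  by_contra hlt
  push Not at hlt
  obtain ⟨C, _, _, _, _, _, _, _, _, _, j, Φ, c, hj, hΦ, hΦ0, h1, h2, hΦa, hres⟩ :=
    exists_killed_eigensymbol D ht B hSNt (killedSpace_ne_bot D ht htN B B₀ hSNt hlt)
  obtain ⟨ε, Φ', hε, hΦ'0, hΦ'L, hU, hΦ'a⟩ :=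
    exists_signed_eigensymbol D ht hΦ hΦ0 h1 h2 hSNt (fun l => j (c l)) hΦa
  have hpC : (p : C) ∈ maximalIdeal C := by
    rw [← map_natCast (algebraMap O C)]; exact map_nonunit _ _ mem_maximalIdeal_of_charP
  obtain ⟨P, hP⟩ := Density.exists_liesOverPrime ht
  obtain ⟨σ, hσ⟩ := Density.exists_isFrobeniusAt P ht hP
  exact htt P hP σ hσ (sq_trace_eq_of_uOp_sq R hp2 hpC ht htp htN hS hj hΦ'L hΦ'0 hε hU hΦ'a
    (fun l hl hlS P hP σ hσ => by rw [hres l hl hlS, ha l hl hlS P hP σ hσ]) hP hσ)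

/-- **Where the system is not residually modular the eigenpart vanishes.** -/
theorem eigenPart_eq_bot_of_not_residual (hp2 : p ≠ 2) {W : WeierstrassCurve ℤ} {L : ℕ} [NeZero L]
    (hell : p = 3 → ∃ s, s.Prime ∧ s ∣ L ∧ s % 3 = 2) (hS : ∀ q, q.Prime → q ∣ L * p → q ∈ S)
    (hW : ∀ ℓ, ℓ.Prime → W.IsGoodPrimeFor ℓ → ℓ ≠ p → ∀ P : ValuationSubring Qbar,
      P.LiesOverPrime ℓ → ∀ φ, P.IsFrobeniusAt φ ℓ →
        (R.rep φ).trace = (W.apOfModel ℓ : ResidueField O))
    (hnot : ¬ W.IsResiduallyModularOfLevel p L) :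
    eigenPart (ResidueField O) (1 : DirichletCharacter (ResidueField O) L) S (residue O ∘ a) =
      ⊥ := by
  classical
  have hSL : ∀ q, q.Prime → q ∣ L → q ∈ S := fun q hq h => hS q hq (h.mul_right p)
  by_contra hbot
  obtain ⟨C, _, _, _, _, _, _, _, _, _, j, Φ, c, hj, hpC, hΦ, hΦ0, hΦa, hres⟩ :=
    exists_eigensymbol_of_ne_bot hp2 hell hS (exists_ne_eisenstein R hp2 ha) hbot
  have : CharZero (Kbar O) := charZero_of_injective_ringHom (algebraMap_kbar_injective O)
  set ι := ResidueField.map (algebraMap O C)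
  set S₀ := (L * p).primeFactors
  have hLp : L * p ≠ 0 := mul_ne_zero (NeZero.ne L) (Fact.out : p.Prime).ne_zero
  have hmemS₀ : ∀ q, q.Prime → (q ∈ S₀ ↔ q ∣ L * p) := fun q hq => by
    simp [S₀, Nat.mem_primeFactors, hq, hLp]
  have hS₀S : S₀ ⊆ S := fun q hq => by
    obtain ⟨hq1, hq2, -⟩ := Nat.mem_primeFactors.mp hq
    exact hS q hq1 hq2
  have hpS₀ : p ∈ S₀ := (hmemS₀ p Fact.out).mpr (dvd_mul_left p L)
  have hS₀L : ∀ q, q.Prime → q ∣ L → q ∈ S₀ := fun q hq h => (hmemS₀ q hq).mpr (h.mul_right p)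
  have hresR : ∀ l, l.Prime → l ∉ S → ∀ P : ValuationSubring Qbar, P.LiesOverPrime l →
      ∀ σ, P.IsFrobeniusAt σ l → residue C (c l) = ι (R.rep σ).trace :=
    fun l hl hlS P hP σ hσ => by rw [hres l hl hlS, ha l hl hlS P hP σ hσ]
  obtain ⟨f, hf, Ψ, hΨ, hΨ0, hΨa, -⟩ := exists_point_newform (hpC := hpC) j hj ∅ (by simp)
    (fun t => (1 : DirichletCharacter C t)) (by simp) (M := L) (NeZero.ne _) (by simp)
    (L := L) (by simp) (1 : DirichletCharacter C L)
    (fun x hx => by rw [MulChar.one_apply hx, Finset.prod_empty]) S₀ hpS₀ hS₀L c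
    (by rw [MulChar.ringHomComp_one, symbChar_eq_lev]; exact hΦ) hΦ0
    (fun l hl hlS => by
      have hlL : ¬ l ∣ L := fun h => hlS (hS₀L l hl h)
      rw [MulChar.ringHomComp_one, tOpChar_one hl hlL]
      exact hΦa l hl hlL)
    hp2 R ι S hS₀S (fun l hl hlS P hP σ hσ => by
      rw [Finset.prod_empty, one_mul]; exact hresR l hl hlS P hP σ hσ)
  simp only [Finset.prod_empty, one_mul] at hf
  -- residual values at all primes not dividing `L p`
  have hall := (hf.mono hS₀S).residue_eq (hS₀S hpS₀) R ι hresR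
  obtain ⟨ℓ, hℓ, hℓS, hmod, hℓR⟩ := R.exists_ne_one_add hp2 S (NeZero.ne L)
  obtain ⟨Pℓ, hPℓ⟩ := Density.exists_liesOverPrime hℓ
  obtain ⟨φℓ, hφℓ⟩ := Density.exists_isFrobeniusAt Pℓ hℓ hPℓ
  refine hnot (isResiduallyModular_of_symbol (p := p) j hj hΦ hΦ0 c hΦa hpC
    ⟨ℓ, hℓ, fun h => hℓS (hS ℓ hℓ (h.mul_right p)), hmod,
      fun he => hℓR Pℓ hPℓ φℓ hφℓ (ι.injective (by
      rw [← hresR ℓ hℓ hℓS Pℓ hPℓ φℓ hφℓ,
        show c ℓ = 1 + ℓ from hj (by rw [he, map_add, map_one, map_natCast])]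
      simp only [map_add, map_one, map_natCast]))⟩ fun l hl hgood hlL hlp => ?_)
  obtain ⟨P, hP⟩ := Density.exists_liesOverPrime hl
  obtain ⟨σ, hσ⟩ := Density.exists_isFrobeniusAt P hl hP
  have hlS₀ : l ∉ S₀ := fun h => ((hl.dvd_mul).mp ((hmemS₀ l hl).mp h)).elim hlL
    fun h' => hlp ((Nat.prime_dvd_prime_iff_eq hl Fact.out).mp h')
  rw [← hf.frob l hl hlS₀ P hP σ hσ, hall, hW l hl hgood hlp P hP σ hσ, map_intCast]

end Lowering

end FLTAgent.LevelLowering
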