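import Fermat.Agent.LevelLowering.PatchData
import Mathlib.LinearAlgebra.Matrix.Charpoly.Coeff
import Mathlib.RingTheory.Polynomial.Nilpotent

/-!
# A datum of the patching system from a Hecke algebra

The Hecke algebra `T` of a level acts on the twisted and on the untwisted module, congruently
modulo the uniformiser.  Identities which hold at all points give identities up to nilpotent
matrices; over a reduced ring these vanish after raising to the power of the rank.  The result
`exists_valid_of_heckeAlgebra` is applied in `LevelLowering.Core.Datum`.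
-/

set_option autoImplicit false

noncomputable section

open IsLocalRing Polynomial

namespace FLTAgent.LevelLowering

/-- A nilpotent square matrix over a reduced ring is killed by the power `d`. -/
theorem pow_card_eq_zero_of_isNilpotent {A : Type} [CommRing A] [IsReduced A] {d : ℕ}
    {M : Mat d A} (hM : IsNilpotent M) : M ^ d = 0 := by
  have h : M.charpoly = X ^ d := by
    have h := Matrix.isNilpotent_charpoly_sub_pow_of_isNilpotent hM
    rw [Fintype.card_fin] at h
    exact sub_eq_zero.mp (Polynomial.ext fun n => by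
      simpa using (Polynomial.isNilpotent_iff.mp h n).eq_zero)
  simpa [h] using Matrix.aeval_self_charpoly M

variable {O : Type} [CommRing O] {r d : ℕ} {α β γ : Type} [Fintype α] [Fintype β] [Fintype γ]
  [Fintype (PVar α β γ)]

/-- The quantity `h` of a family of elements at a site. -/
def hSite {T : Type} [Add T] [Mul T] (V : PVar α β γ → T) : α ⊕ β → T
  | .inl a => V (.vA a 0) * V (.vA a 0) + V (.vA a 1) * V (.vA a 2)
  | .inr b => V (.vh b)

/-- The constants of the datum given by Hecke algebras: the polynomials are raised to the power of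
the rank, the squares of the diamond variables are used, and the separating element is `1`. -/
def levelParams (lam : O) (d : ℕ) (f : α ⊕ β → O[X]) (c : α ⊕ β → O) : PatchParams O α β where
  lam := lam
  D := 2 * d
  f i := f i ^ d
  c := c
  e _ := -1

variable {A T : Type} [CommRing A] [IsReduced A] [IsLocalRing A] [CommRing T] [Algebra A T]
  {R : Type} [CommRing R] [Algebra (MvPowerSeries (Fin r) O) R]

/-- A Hecke algebra acting on two modules congruent modulo `lam` gives a patching datum. -/
theorem exists_valid_of_heckeAlgebra (ι : O →+* A) (y : Fin r → A) (lam : O)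
    (hmax : maximalIdeal A = Ideal.span (insert (ι lam) (Set.range y)))
    (φ : A →+* R) (hφι : ∀ o, φ (ι o) = cst (r := r) R o) (hφy : ∀ t, φ (y t) = yv O R t)
    (πχ π₁ : T →ₐ[A] Mat d A)
    (hcongr : ∀ x i j, πχ x i j - π₁ x i j ∈ Ideal.span {ι lam})
    (V : PVar α β γ → T) (f : α ⊕ β → O[X]) (c : α ⊕ β → O)
    (hgen : ∀ t, ∃ s ∈ Ideal.span (insert (algebraMap A T (ι lam)) (Set.range V)),
      IsNilpotent (πχ (algebraMap A T (y t) ^ 2 - s)))
    (hnil : ∀ v, IsNilpotent ((residue A).mapMatrix (πχ (V v))))
    (hqB : ∀ a, IsNilpotent (πχ ((f (.inl a)).eval₂ ((algebraMap A T).comp ι)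
      (V (.vB a 0) * V (.vB a 0) + V (.vB a 1) * V (.vB a 2)))))
    (hcross : ∀ a i k, IsNilpotent (πχ (V (.vA a i) * V (.vB a k) - V (.vA a k) * V (.vB a i))))
    (hmuh : ∀ b, IsNilpotent (πχ ((f (.inr b)).eval₂ ((algebraMap A T).comp ι)
      (V (.vmu b) * V (.vmu b) * V (.vh b)))))
    (hst : ∀ i, IsNilpotent (π₁ (hSite V i - algebraMap A T (ι (c i))))) :
    ∃ D : PatchData r d α β γ R, D.Valid (levelParams lam d f c) := by
  classical
  have key0 : ∀ {x : T}, IsNilpotent (πχ x) → πχ (x ^ d) = 0 := fun hx => by
    rw [map_pow]; exact pow_card_eq_zero_of_isNilpotent hx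
  have key0' : ∀ {x : T}, IsNilpotent (πχ x) → πχ (x ^ (2 * d)) = 0 := fun hx => by
    rw [map_pow]; exact pow_eq_zero_of_le (show d ≤ 2 * d by omega)
      (pow_card_eq_zero_of_isNilpotent hx)
  have hK : ∀ t, ∃ K : Option (PVar α β γ) → T,
      πχ (algebraMap A T (ι lam) * K none + ∑ v, V v * K (some v)) =
        πχ (algebraMap A T (y t) ^ (2 * d)) := by
    intro t
    obtain ⟨s, hs, hn⟩ := hgen t
    obtain ⟨w, hw⟩ := sub_dvd_pow_sub_pow (algebraMap A T (y t) ^ 2)
      (algebraMap A T (y t) ^ 2 - s) d
    rw [sub_sub_cancel] at hw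
    have hz := Ideal.mul_mem_right w _ hs
    rw [← hw, ← pow_mul, Ideal.mem_span_insert] at hz
    obtain ⟨a, z, hz, e⟩ := hz
    obtain ⟨g, rfl⟩ := Ideal.mem_span_range_iff_exists_fun.mp hz
    refine ⟨fun o => o.elim a g, ?_⟩
    have e2 := congrArg πχ e
    rw [map_sub, key0 hn, sub_zero] at e2
    rw [e2]
    simp [mul_comm]
  choose K hK using hK
  have hZ : ∀ v, ∃ Z : Option (Fin r) → Mat d A,
      πχ (V v) ^ (2 * d) = ι lam • Z none + ∑ t, y t • Z (some t) := by
    intro v
    have h := pow_eq_zero_of_le (show d ≤ 2 * d by omega)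
      (pow_card_eq_zero_of_isNilpotent (hnil v))
    rw [← map_pow] at h
    have hmem : ∀ i j, ∃ (a : A) (g : Fin r → A),
        (πχ (V v) ^ (2 * d)) i j = a * ι lam + ∑ t, g t * y t := by
      intro i j
      have h1 : residue A ((πχ (V v) ^ (2 * d)) i j) = 0 := congrFun (congrFun h i) j
      rw [residue_eq_zero_iff, hmax, Ideal.mem_span_insert] at h1
      obtain ⟨a, z, hz, e⟩ := h1
      obtain ⟨g, hg⟩ := Ideal.mem_span_range_iff_exists_fun.mp hz
      exact ⟨a, g, by rw [e, hg]⟩
    choose a g hag using hmem
    refine ⟨fun o => o.elim (Matrix.of a) fun t => Matrix.of fun i j => g i j t, ?_⟩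
    ext i j
    rw [hag]
    simp [Matrix.sum_apply, mul_comm]
  choose Z hZ using hZ
  have hL : ∀ i, ∃ L : Mat d A, πχ (hSite V i) - π₁ (hSite V i) = ι lam • L := by
    intro i
    choose a ha using fun k l => Ideal.mem_span_singleton'.mp (hcongr (hSite V i) k l)
    exact ⟨Matrix.of a, by ext k l; simp [← ha, mul_comm]⟩
  choose L hL using hL
  let M : Mat d A →+* Mat d R := φ.mapMatrix
  have hMs : ∀ (a : A) (X : Mat d A), M (a • X) = φ a • M X := fun a X => by
    ext i j; simp [M]
  have hMal : ∀ a : A, M (algebraMap A (Mat d A) a) = φ a • 1 := fun a => by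
    rw [Algebra.algebraMap_eq_smul_one, hMs, map_one]
  have hev : ∀ (p : O[X]) (x : T), M (πχ (p.eval₂ ((algebraMap A T).comp ι) x)) =
      p.eval₂ (cstMat d r R) (M (πχ x)) := by
    intro p x
    rw [← AlgHom.coe_toRingHom, Polynomial.hom_eval₂, Polynomial.hom_eval₂]
    congr 1
    ext o i j
    simp [M, cstMat, Matrix.algebraMap_matrix_apply, apply_ite φ, hφι]
  refine ⟨{ F := fun i => M (πχ (i.elim V fun tv => K tv.1 tv.2))
            Z := fun v o => M (Z v o)
            H1 := fun i => M (π₁ (hSite V i))
            U := fun _ => 1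
            W := fun _ _ => 0
            L := fun i => M (L i) }, ?_⟩
  constructor
  · intro i j
    simp only [← map_mul, mul_comm]
  · intro t
    have h := congrArg M (hK t).symm
    simp only [map_add, map_mul, map_sum, map_pow, AlgHom.commutes, hMal, hφι, hφy,
      smul_mul_assoc, one_mul, smul_pow, one_pow] at h
    exact h
  · intro v
    have h := congrArg M (hZ v)
    simp only [map_add, map_sum, map_pow, hMs, hφι, hφy] at h
    exact h
  · intro a
    have h := congrArg M (key0 (hqB a))
    rw [← Polynomial.eval₂_pow, hev, map_zero] at h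
    simpa [PatchData.V, levelParams, map_add, map_mul] using h
  · intro a i k
    have h := congrArg M (key0' (hcross a i k))
    simpa [PatchData.V, levelParams, map_pow, map_sub, map_mul] using h
  · intro b
    have h := congrArg M (key0 (hmuh b))
    rw [← Polynomial.eval₂_pow, hev, map_zero] at h
    simpa [PatchData.V, levelParams, map_mul] using h
  · intro i; simp
  · intro i
    have h := congrArg M (show π₁ ((hSite V i - algebraMap A T (ι (c i))) ^ (2 * d)) = 0 by
      rw [map_pow]; exact pow_eq_zero_of_le (show d ≤ 2 * d by omega)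
        (pow_card_eq_zero_of_isNilpotent (hst i)))
    rw [map_pow, map_sub, AlgHom.commutes, map_pow, map_sub, hMal, hφι, map_zero] at h
    simpa [levelParams] using h
  · intro i
    rcases Nat.eq_zero_or_pos d with rfl | hd
    · ext k; exact k.elim0
    · simp [levelParams, hd.ne']
  · intro i
    have h := congrArg M (hL i)
    rw [map_sub, hMs, hφι] at h
    simp only [levelParams]
    rw [← h]
    congr 1
    cases i <;> simp [PatchData.hChi, PatchData.V, hSite]

end FLTAgent.LevelLowering
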