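import Fermat.Agent.LevelLowering.Level.FiniteFree
import Fermat.Agent.LevelLowering.PatchData
import Mathlib.RepresentationTheory.Maschke
import Mathlib.RingTheory.Jacobson.Semiprimary
import Mathlib.Algebra.CharP.Lemmas
import Mathlib.Algebra.CharP.Algebra

/-!
# The coefficient rings `O[(ℤ/pⁿ)ʳ]` of the levels of a patching system

`LevelAlg` is local, complete and, in characteristic zero, reduced, with maximal ideal generated by
a uniformiser and the elements `yA t = g_t - 1`; `toPLevel` maps it to the levels `S / 𝔪ᵐ` of the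
power series ring.  Used as coefficients of the Hecke modules at Taylor–Wiles levels.
-/

set_option autoImplicit false

noncomputable section

open IsLocalRing

namespace FLTAgent.LevelLowering

/-- The group `(ℤ/N)ʳ`, written multiplicatively. -/
abbrev LevelGroup (r N : ℕ) : Type := Multiplicative (Fin r → ZMod N)

/-- The group algebra of `(ℤ/N)ʳ`. -/
abbrev LevelAlg (O : Type) [CommRing O] (r N : ℕ) : Type := MonoidAlgebra O (LevelGroup r N)

/-- The `t`-th standard generator. -/
def levelGen (r N : ℕ) (t : Fin r) : LevelGroup r N := Multiplicative.ofAdd (Pi.single t 1)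

/-- The element `g_t - 1`. -/
def yA (O : Type) [CommRing O] {r N : ℕ} (t : Fin r) : LevelAlg O r N :=
  MonoidAlgebra.of O _ (levelGen r N t) - 1

variable {O : Type} [CommRing O] {r N : ℕ} [NeZero N]

/-- The homomorphism with prescribed values on the generators. -/
def levelChar {M : Type} [CommMonoid M] (u : Fin r → M) (hu : ∀ t, u t ^ N = 1) :
    LevelGroup r N →* M where
  toFun x := ∏ t, u t ^ (Multiplicative.toAdd x t).val
  map_one' := by simp
  map_mul' x y := by
    rw [← Finset.prod_mul_distrib]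
    refine Finset.prod_congr rfl fun t _ => ?_
    rw [toAdd_mul, Pi.add_apply, ZMod.val_add, ← pow_add]
    exact (pow_eq_pow_mod _ (hu t)).symm

theorem levelChar_gen [Fact (1 < N)] {M : Type} [CommMonoid M] (u : Fin r → M)
    (hu : ∀ t, u t ^ N = 1) (t : Fin r) : levelChar u hu (levelGen r N t) = u t := by
  simp only [levelChar, levelGen, MonoidHom.coe_mk, OneHom.coe_mk, toAdd_ofAdd]
  rw [Finset.prod_eq_single t]
  · rw [Pi.single_eq_same, ZMod.val_one, pow_one]
  · intro s _ hs
    rw [Pi.single_eq_of_ne hs, ZMod.val_zero, pow_zero]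
  · simp

theorem levelGen_prod (x : LevelGroup r N) :
    x = ∏ t, levelGen r N t ^ (Multiplicative.toAdd x t).val := by
  apply Multiplicative.toAdd.injective
  ext s
  rw [toAdd_prod, Finset.sum_apply, Finset.sum_eq_single s]
  · simp [levelGen]
  · intro t _ ht
    simp [levelGen, Pi.single_eq_of_ne ht.symm]
  · simp

variable (O r N) in
/-- The augmentation. -/
def levelAug : LevelAlg O r N →ₐ[O] O := MonoidAlgebra.lift O O _ 1

/-- The augmentation ideal is generated by the `g_t - 1`. -/
theorem sub_levelAug_mem (x : LevelAlg O r N) :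
    x - algebraMap O _ (levelAug O r N x) ∈ Ideal.span (Set.range (yA O (r := r) (N := N))) := by
  set I := Ideal.span (Set.range (yA O (r := r) (N := N)))
  have hgen : ∀ y : LevelGroup r N, MonoidAlgebra.of O _ y - 1 ∈ I := by
    intro y
    have key : ∀ (s : Finset (Fin r)) (k : Fin r → ℕ),
        MonoidAlgebra.of O _ (∏ t ∈ s, levelGen r N t ^ k t) - 1 ∈ I := by
      intro s k
      rw [map_prod, ← Ideal.Quotient.eq, map_prod, map_one]
      refine Finset.prod_eq_one fun t _ => ?_
      have h1 : Ideal.Quotient.mk I (MonoidAlgebra.of O _ (levelGen r N t)) =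
          Ideal.Quotient.mk I 1 :=
        Ideal.Quotient.eq.mpr (Ideal.subset_span (Set.mem_range_self (f := yA O) t))
      rw [map_pow (MonoidAlgebra.of O (LevelGroup r N)), map_pow, h1, map_one, one_pow]
    have := key Finset.univ fun t => (Multiplicative.toAdd y t).val
    rwa [← levelGen_prod y] at this
  induction x using MonoidAlgebra.induction_on with
  | of g => simpa [levelAug, MonoidAlgebra.one_def] using hgen g
  | add a b ha hb =>
    rw [map_add, map_add, add_sub_add_comm]
    exact add_mem ha hb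
  | smul c a ha =>
    rw [map_smul, smul_eq_mul, map_mul, Algebra.smul_def, ← mul_sub]
    exact I.mul_mem_left _ ha

variable [IsLocalRing O] {p : ℕ} [Fact p.Prime] {n : ℕ}

omit [IsLocalRing O] in
theorem pow_sub_levelAug_pow_mem (x : LevelAlg O r (p ^ n)) :
    x ^ p ^ n - algebraMap O _ (levelAug O r (p ^ n) x) ^ p ^ n ∈
      Ideal.span {(p : LevelAlg O r (p ^ n))} := by
  induction x using MonoidAlgebra.induction_on with
  | of g =>
    rw [← map_pow, show g ^ p ^ n = 1 from Multiplicative.toAdd.injective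
      (by ext; simp), map_one]
    simp [levelAug, MonoidAlgebra.one_def]
  | add a b ha hb =>
    obtain ⟨u, hu⟩ := exists_add_pow_prime_pow_eq (Fact.out : p.Prime) a b n
    obtain ⟨v, hv⟩ := exists_add_pow_prime_pow_eq (Fact.out : p.Prime)
      (algebraMap O (LevelAlg O r (p ^ n)) (levelAug O r (p ^ n) a))
      (algebraMap O (LevelAlg O r (p ^ n)) (levelAug O r (p ^ n) b)) n
    obtain ⟨c, hc⟩ := Ideal.mem_span_singleton'.mp ha
    obtain ⟨d, hd⟩ := Ideal.mem_span_singleton'.mp hb
    rw [map_add, map_add, hu, hv]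
    refine Ideal.mem_span_singleton'.mpr ⟨c + d + a * b * u -
      algebraMap O _ (levelAug O r (p ^ n) a) * algebraMap O _ (levelAug O r (p ^ n) b) * v, ?_⟩
    linear_combination hc + hd
  | smul c a ha =>
    rw [map_smul, smul_eq_mul, map_mul, Algebra.smul_def, mul_pow, mul_pow, ← mul_sub]
    exact Ideal.mul_mem_left _ _ ha

variable (hp : (p : O) ∈ maximalIdeal O)

include hp in
/-- An element is a unit as soon as its augmentation is one. -/
theorem isUnit_of_levelAug {x : LevelAlg O r (p ^ n)} (hx : IsUnit (levelAug O r (p ^ n) x)) :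
    IsUnit x := by
  have h1 : IsUnit (algebraMap O (LevelAlg O r (p ^ n)) (levelAug O r (p ^ n) x) ^ p ^ n) :=
    (hx.map (algebraMap O (LevelAlg O r (p ^ n)))).pow _
  obtain ⟨c, hc⟩ := Ideal.mem_span_singleton'.mp (pow_sub_levelAug_pow_mem x)
  have hj : (p : (LevelAlg O r (p ^ n))) ∈ Ideal.jacobson (⊥ : Ideal (LevelAlg O r (p ^ n))) := by
    refine Ideal.mem_sInf.mpr fun M ⟨_, hM⟩ => ?_
    have := Ideal.isMaximal_comap_of_isIntegral_of_isMaximal (R := O) M
    have h2 : (p : O) ∈ M.comap (algebraMap O (LevelAlg O r (p ^ n))) := by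
      rw [eq_maximalIdeal this]; exact hp
    simpa using h2
  have h2 : IsUnit (x ^ p ^ n) := by
    rw [show x ^ p ^ n = algebraMap O (LevelAlg O r (p ^ n)) (levelAug O r (p ^ n) x) ^ p ^ n +
      c * (p : (LevelAlg O r (p ^ n))) by
      rw [hc]; ring]
    obtain ⟨v, hv⟩ := h1
    rw [← hv, show (↑v : (LevelAlg O r (p ^ n))) + c * p =
      ↑v * (↑v⁻¹ * c * (p : (LevelAlg O r (p ^ n))) + 1) by
      rw [mul_add, mul_one, ← mul_assoc, ← mul_assoc, Units.mul_inv, one_mul]; ring]
    refine v.isUnit.mul (isUnit_iff_exists_inv.mpr ?_)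
    have := (Ideal.mem_jacobson_bot.mp hj) (↑v⁻¹ * c)
    exact isUnit_iff_exists_inv.mp (by rwa [mul_comm] at this)
  exact (isUnit_pow_iff (pow_ne_zero _ (Fact.out : p.Prime).ne_zero)).mp h2

include hp in
theorem isLocalRing_levelAlg : IsLocalRing (LevelAlg O r (p ^ n)) :=
  haveI : Nontrivial (LevelAlg O r (p ^ n)) :=
    (levelAug O r (p ^ n)).toRingHom.domain_nontrivial
  .of_unique_max_ideal ⟨(maximalIdeal O).comap (levelAug O r (p ^ n)),
    Ideal.comap_isMaximal_of_surjective _ fun a =>
      ⟨algebraMap O _ a, AlgHom.commutes _ a⟩,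
    fun M hM => (hM.eq_of_le (Ideal.IsPrime.ne_top inferInstance) fun x hx => by
      by_contra h
      exact hM.ne_top (M.eq_top_of_isUnit_mem hx
        (isUnit_of_levelAug hp (by simpa using h))))⟩

section Local

variable [IsLocalRing (LevelAlg O r (p ^ n))]

include hp in
theorem maximalIdeal_levelAlg {lam : O} (hlam : maximalIdeal O = Ideal.span {lam}) :
    maximalIdeal (LevelAlg O r (p ^ n)) =
      Ideal.span (insert (algebraMap O _ lam) (Set.range (yA O (r := r) (N := p ^ n)))) := by
  have hmem : ∀ x : LevelAlg O r (p ^ n),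
      x ∈ maximalIdeal _ ↔ levelAug O r (p ^ n) x ∈ maximalIdeal O := fun x =>
    not_iff_not.mpr ⟨fun h => h.map _, isUnit_of_levelAug hp⟩
  refine le_antisymm (fun x hx => ?_) (Ideal.span_le.mpr ?_)
  · rw [hmem, hlam, Ideal.mem_span_singleton'] at hx
    obtain ⟨c, hc⟩ := hx
    rw [show x = algebraMap O _ c * algebraMap O _ lam +
      (x - algebraMap O _ (levelAug O r (p ^ n) x)) by rw [← map_mul, hc]; ring]
    exact add_mem (Ideal.mul_mem_left _ _ (Ideal.subset_span (Set.mem_insert _ _)))
      (Ideal.span_mono (Set.subset_insert _ _) (sub_levelAug_mem x))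
  · rintro _ (rfl | ⟨t, rfl⟩)
    · rw [SetLike.mem_coe, hmem, AlgHom.commutes]
      simp [hlam]
    · rw [SetLike.mem_coe, hmem]
      simp [yA, levelAug]

omit [IsLocalRing O] [Fact p.Prime] [IsLocalRing (LevelAlg O r (p ^ n))] in
theorem isLocalHom_levelAlg : IsLocalHom (algebraMap O (LevelAlg O r (p ^ n))) :=
  ⟨fun a ha => by
    have := ha.map (levelAug O r (p ^ n))
    rwa [AlgHom.commutes] at this⟩

variable [IsAdicComplete (maximalIdeal O) O] [Finite (ResidueField O)]

theorem isAdicComplete_levelAlg :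
    IsAdicComplete (maximalIdeal (LevelAlg O r (p ^ n))) (LevelAlg O r (p ^ n)) :=
  haveI := isLocalHom_levelAlg (O := O) (r := r) (p := p) (n := n)
  isAdicComplete_of_finite_free O _

omit [IsAdicComplete (maximalIdeal O) O] in
theorem finite_residueField_levelAlg : Finite (ResidueField (LevelAlg O r (p ^ n))) :=
  haveI := isLocalHom_levelAlg (O := O) (r := r) (p := p) (n := n)
  finite_residueField_of_finite O _

omit [IsAdicComplete (maximalIdeal O) O] [Finite (ResidueField O)] in
include hp in
theorem charP_residueField_levelAlg : CharP (ResidueField (LevelAlg O r (p ^ n))) p :=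
  (CharP.charP_iff_prime_eq_zero (Fact.out : p.Prime)).mpr (by
    have := isLocalHom_levelAlg (O := O) (r := r) (p := p) (n := n)
    rw [← map_natCast (residue (LevelAlg O r (p ^ n))), residue_eq_zero_iff,
      ← map_natCast (algebraMap O (LevelAlg O r (p ^ n)))]
    exact map_nonunit (algebraMap O _) _ hp)

end Local

omit [IsLocalRing O] in
theorem isReduced_levelAlg [IsDomain O] [CharZero O] : IsReduced (LevelAlg O r N) := by
  let K := FractionRing O
  have : CharZero K := charZero_of_injective_ringHom (IsFractionRing.injective O K)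
  have : NeZero (Nat.card (LevelGroup r N) : K) := ⟨Nat.cast_ne_zero.mpr Nat.card_pos.ne'⟩
  refine isReduced_of_injective (MonoidAlgebra.mapRingHom (LevelGroup r N) (algebraMap O K)) ?_
  intro x y h
  ext g
  refine IsFractionRing.injective O K ?_
  simpa using congrArg (fun z : MonoidAlgebra K (LevelGroup r N) => z.coeff g) h

/-! ### The map to the levels of the power series ring -/

omit [IsLocalRing O] in
theorem one_add_pow_sub_one_mem {S : Type} [CommRing S] (I : Ideal S) {p : ℕ} (hp : (p : S) ∈ I)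
    {y : S} (hy : y ∈ I) : ∀ n, (1 + y) ^ p ^ n - 1 ∈ I ^ (n + 1)
  | 0 => by simpa using hy
  | n + 1 => by
    have ih := one_add_pow_sub_one_mem I hp hy n
    obtain ⟨z, hz⟩ : ∃ z, (1 + y) ^ p ^ n = 1 + z ∧ z ∈ I ^ (n + 1) :=
      ⟨_, (add_sub_cancel 1 _).symm, ih⟩
    rw [pow_succ p n, pow_mul, hz.1, ← geom_sum_mul (1 + z) p]
    rw [pow_succ' I (n + 1)]
    refine Ideal.mul_mem_mul ?_ (by simpa using hz.2)
    have h1 : Ideal.Quotient.mk I (∑ i ∈ Finset.range p, (1 + z) ^ i) = Ideal.Quotient.mk I p := by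
      simp [map_sum, Ideal.Quotient.eq_zero_iff_mem.mpr (Ideal.pow_le_self n.succ_ne_zero hz.2)]
    have h2 := Ideal.Quotient.eq.mp h1
    simpa using add_mem h2 hp

omit [Fact p.Prime] in
theorem one_add_yv_pow (hp : (p : O) ∈ maximalIdeal O) {m : ℕ} (hm : m ≤ n + 1) (t : Fin r) :
    (1 + yv O (PLevel O r m) t) ^ p ^ n = 1 := by
  rw [yv, Ideal.Quotient.algebraMap_eq, ← map_one (Ideal.Quotient.mk _), ← map_add, ← map_pow,
    Ideal.Quotient.eq]
  refine Ideal.pow_le_pow_right hm (one_add_pow_sub_one_mem _ ?_ ?_ n)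
  · rw [← map_natCast (algebraMap O (MvPowerSeries (Fin r) O))]
    exact map_nonunit (algebraMap O _) _ hp
  · exact DefRing.X_mem_maximalIdeal t

/-- The map to `S / 𝔪ᵐ`. -/
def toPLevel (hp : (p : O) ∈ maximalIdeal O) {m : ℕ} (hm : m ≤ n + 1) :
    LevelAlg O r (p ^ n) →+* PLevel O r m :=
  MonoidAlgebra.liftNCRingHom
    ((algebraMap (MvPowerSeries (Fin r) O) (PLevel O r m)).comp MvPowerSeries.C)
    (levelChar (fun t => 1 + yv O (PLevel O r m) t) (one_add_yv_pow hp hm))
    fun _ _ => Commute.all _ _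

theorem toPLevel_algebraMap {hp : (p : O) ∈ maximalIdeal O} {m : ℕ} {hm : m ≤ n + 1} (a : O) :
    toPLevel (r := r) hp hm (algebraMap O _ a) = cst (r := r) (PLevel O r m) a := by
  simp [toPLevel, cst]

theorem toPLevel_yA [Fact (1 < p ^ n)] {hp : (p : O) ∈ maximalIdeal O} {m : ℕ} {hm : m ≤ n + 1}
    (t : Fin r) : toPLevel (r := r) hp hm (yA O t) = yv O (PLevel O r m) t := by
  simp [toPLevel, yA, MonoidAlgebra.of_apply, levelChar_gen]

end FLTAgent.LevelLowering
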