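import Mathlib.RingTheory.AdicCompletion.Noetherian
import Mathlib.RingTheory.Finiteness.Basic
import Mathlib.RingTheory.LocalRing.ResidueField.Basic
import Mathlib.RingTheory.Artinian.Ring
import Mathlib.LinearAlgebra.FreeModule.Finite.Basic

/-!
# Finite free local algebras over a complete local ring

Over a complete local ring with finite residue field such an algebra is complete
(`isAdicComplete_of_finite_free`) with finite residue field (`finite_residueField_of_finite`).
Used for the group algebras of the levels.
-/

set_option autoImplicit false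

open IsLocalRing

namespace FLTAgent.LevelLowering

variable {O : Type} [CommRing O] [IsLocalRing O]
variable {B : Type} [CommRing B] [Algebra O B]

theorem mem_map_maximalIdeal_pow_iff {ι : Type} [Fintype ι] (b : Module.Basis ι O B) (n : ℕ)
    (x : B) : x ∈ (maximalIdeal O).map (algebraMap O B) ^ n ↔
      ∀ i, b.repr x i ∈ maximalIdeal O ^ n := by
  rw [← Ideal.map_pow, ← Submodule.restrictScalars_mem O, ← Ideal.smul_top_eq_map]
  constructor
  · intro h i
    refine Submodule.smul_induction_on h (fun r hr y _ => ?_) fun a c ha hc => ?_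
    · rw [map_smul, Finsupp.smul_apply, smul_eq_mul]
      exact Ideal.mul_mem_right _ _ hr
    · rw [map_add, Finsupp.add_apply]; exact add_mem ha hc
  · intro h
    rw [← b.sum_repr x]
    exact sum_mem fun i _ => Submodule.smul_mem_smul (h i) Submodule.mem_top

variable [IsAdicComplete (maximalIdeal O) O] [Module.Free O B] [Module.Finite O B]

theorem isAdicComplete_map_maximalIdeal :
    IsAdicComplete ((maximalIdeal O).map (algebraMap O B)) B := by
  classical
  let b := Module.Free.chooseBasis O B
  have : IsHausdorff ((maximalIdeal O).map (algebraMap O B)) B := ⟨fun x hx => by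
    refine b.repr.injective (Finsupp.ext fun i => ?_)
    rw [map_zero, Finsupp.zero_apply]
    refine IsHausdorff.haus (I := maximalIdeal O) inferInstance _ fun n => ?_
    have := hx n
    rw [SModEq.zero, smul_eq_mul, Ideal.mul_top] at this ⊢
    exact (mem_map_maximalIdeal_pow_iff b n x).mp this i⟩
  have : IsPrecomplete ((maximalIdeal O).map (algebraMap O B)) B := ⟨fun f hf => by
    have hcoord : ∀ i, ∀ {m n : ℕ}, m ≤ n →
        b.repr (f m) i ≡ b.repr (f n) i [SMOD (maximalIdeal O ^ m • ⊤ : Submodule O O)] := by
      intro i m n h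
      have := hf h
      rw [SModEq.sub_mem, smul_eq_mul, Ideal.mul_top] at this ⊢
      simpa using (mem_map_maximalIdeal_pow_iff b m _).mp this i
    choose L hL using fun i => IsPrecomplete.prec inferInstance (hcoord i)
    refine ⟨∑ i, L i • b i, fun n => ?_⟩
    rw [SModEq.sub_mem, smul_eq_mul, Ideal.mul_top, mem_map_maximalIdeal_pow_iff b]
    intro i
    have := hL i n
    rw [SModEq.sub_mem, smul_eq_mul, Ideal.mul_top] at this
    simpa [map_sub, Finsupp.single_apply] using this⟩
  exact { }

variable [Finite (ResidueField O)]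

omit [IsAdicComplete (maximalIdeal O) O] in
theorem finite_quotient_map_maximalIdeal :
    Finite (B ⧸ (maximalIdeal O).map (algebraMap O B)) := by
  classical
  let b := Module.Free.chooseBasis O B
  refine Finite.of_surjective
    (fun c : Module.Free.ChooseBasisIndex O B → ResidueField O => Ideal.Quotient.mk _
      (∑ i, (Ideal.Quotient.mk_surjective (I := maximalIdeal O) (c i)).choose • b i)) fun y => ?_
  obtain ⟨x, rfl⟩ := Ideal.Quotient.mk_surjective y
  refine ⟨fun i => residue O (b.repr x i), Ideal.Quotient.eq.mpr ?_⟩
  rw [← pow_one ((maximalIdeal O).map (algebraMap O B)), mem_map_maximalIdeal_pow_iff b]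
  intro i
  simp only [map_sub, b.repr_sum_self, Finsupp.sub_apply, pow_one]
  exact Ideal.Quotient.eq.mp
    (Ideal.Quotient.mk_surjective (I := maximalIdeal O) (residue O (b.repr x i))).choose_spec

variable [IsLocalRing B] [IsLocalHom (algebraMap O B)] (O) (B)

include O in
omit [IsAdicComplete (maximalIdeal O) O] in
theorem finite_residueField_of_finite : Finite (ResidueField B) := by
  have := finite_quotient_map_maximalIdeal (O := O) (B := B)
  exact Finite.of_surjective _ (Ideal.Quotient.factor_surjective
    (H := ((local_hom_TFAE (algebraMap O B)).out 0 2).mp ‹IsLocalHom (algebraMap O B)›))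

include O in
/-- A finite free local algebra over a complete local ring with finite residue field is complete. -/
theorem isAdicComplete_of_finite_free : IsAdicComplete (maximalIdeal B) B := by
  have := finite_quotient_map_maximalIdeal (O := O) (B := B)
  set J := (maximalIdeal O).map (algebraMap O B)
  have hle : J ≤ maximalIdeal B := ((local_hom_TFAE (algebraMap O B)).out 0 2).mp
    ‹IsLocalHom (algebraMap O B)›
  obtain ⟨N, hN⟩ : ∃ N, maximalIdeal B ^ N ≤ J := by
    have : Nontrivial (B ⧸ J) := Ideal.Quotient.nontrivial_iff.mpr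
      (ne_top_of_le_ne_top (maximalIdeal.isMaximal B).ne_top hle)
    have : IsLocalRing (B ⧸ J) :=
      .of_surjective' (Ideal.Quotient.mk J) Ideal.Quotient.mk_surjective
    obtain ⟨N, hN⟩ := IsArtinianRing.isNilpotent_jacobson_bot (R := B ⧸ J)
    refine ⟨N, fun x hx => ?_⟩
    have h1 : (maximalIdeal B).map (Ideal.Quotient.mk J) ≤ maximalIdeal (B ⧸ J) := by
      rw [Ideal.map_le_iff_le_comap]
      intro y hy hu
      exact hy (by
        obtain ⟨z, hz⟩ := hu
        obtain ⟨w, hw⟩ := Ideal.Quotient.mk_surjective (↑z⁻¹ : B ⧸ J)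
        have h2 : Ideal.Quotient.mk J (y * w) = 1 := by rw [map_mul, hw, ← hz]; simp
        have h3 : y * w - 1 ∈ maximalIdeal B :=
          hle (Ideal.Quotient.eq.mp (h2.trans (map_one _).symm))
        refine isUnit_of_mul_isUnit_left (y := w) ?_
        by_contra h4
        exact (maximalIdeal.isMaximal B).ne_top ((Ideal.eq_top_iff_one _).mpr
          (by simpa using sub_mem h4 h3)))
    rw [jacobson_eq_maximalIdeal ⊥ bot_ne_top] at hN
    refine Ideal.Quotient.eq_zero_iff_mem.mp ?_
    have := Ideal.pow_right_mono h1 N (Ideal.map_pow (Ideal.Quotient.mk J) _ N ▸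
      Ideal.mem_map_of_mem (Ideal.Quotient.mk J) hx)
    rwa [hN] at this
  have := isAdicComplete_map_maximalIdeal (O := O) (B := B)
  have : IsHausdorff (maximalIdeal B) B := ⟨fun x hx => by
    refine IsHausdorff.haus (I := J) inferInstance x fun n => ?_
    have := hx (N * n)
    rw [SModEq.zero, smul_eq_mul, Ideal.mul_top] at this ⊢
    rw [pow_mul] at this
    exact Ideal.pow_right_mono hN n this⟩
  have : IsPrecomplete (maximalIdeal B) B := ⟨fun f hf => by
    have h' : ∀ {m n : ℕ}, m ≤ n → f ((N + 1) * m) - f ((N + 1) * n) ∈ J ^ m := by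
      intro m n h
      have := hf (Nat.mul_le_mul_left (N + 1) h)
      rw [SModEq.sub_mem, smul_eq_mul, Ideal.mul_top, pow_mul] at this
      exact Ideal.pow_right_mono
        ((Ideal.pow_le_pow_right (Nat.le_succ N)).trans hN) m this
    obtain ⟨L, hL⟩ := IsPrecomplete.prec (I := J) inferInstance (f := fun n => f ((N + 1) * n))
      fun {m n} h => by
        rw [SModEq.sub_mem, smul_eq_mul, Ideal.mul_top]; exact h' h
    refine ⟨L, fun n => ?_⟩
    have h1 := hL n
    have h2 := hf (m := n) (n := (N + 1) * n) (Nat.le_mul_of_pos_left n N.succ_pos)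
    rw [SModEq.sub_mem, smul_eq_mul, Ideal.mul_top] at h1 h2 ⊢
    have h3 := add_mem h2 (Ideal.pow_right_mono hle n h1)
    simpa using h3⟩
  exact { }

end FLTAgent.LevelLowering
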