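import Mathlib.RingTheory.Derivation.Basic
import Mathlib.RingTheory.Nakayama
import Mathlib.RingTheory.LocalRing.ResidueField.Basic
import Mathlib.LinearAlgebra.Dual.Lemmas
import Mathlib.LinearAlgebra.FiniteDimensional.Basic

/-!
# Generators of the maximal ideal from tangent vectors

In a local algebra with trivial residue extension the maximal ideal is generated by a family as
soon as every derivation into the residue field killing the family vanishes.  This
is used for trace algebras in level lowering and modularity lifting.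
-/

set_option autoImplicit false

noncomputable section

open IsLocalRing

namespace FLTAgent.LevelLowering

variable {O T : Type} [CommRing O] [IsLocalRing O] [CommRing T] [IsLocalRing T] [Algebra O T]

theorem maximalIdeal_eq_span_of_derivation
    (hres : ∀ t : T, ∃ o : O, t - algebraMap O T o ∈ maximalIdeal T)
    (hfg : (maximalIdeal T).FG) (S : Set T) (hS : S ⊆ maximalIdeal T)
    (hO : ∀ o ∈ maximalIdeal O, algebraMap O T o ∈ Ideal.span S)
    (h : ∀ D : Derivation O T (ResidueField T), (∀ s ∈ S, D s = 0) → D = 0) :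
    maximalIdeal T = Ideal.span S := by
  classical
  set J := Ideal.span S with hJdef
  have hJ : J ≤ maximalIdeal T := Ideal.span_le.mpr hS
  refine le_antisymm ?_ hJ
  refine Submodule.le_of_le_smul_of_le_jacobson_bot (I := maximalIdeal T) hfg
    (by rw [jacobson_eq_maximalIdeal ⊥ bot_ne_top]) ?_
  rw [smul_eq_mul]
  by_contra hne
  obtain ⟨m, hm, hmN⟩ := SetLike.not_le_iff_exists.mp hne
  set N : Ideal T := J ⊔ maximalIdeal T * maximalIdeal T with hN
  let f : O →+* ResidueField T := (residue T).comp (algebraMap O T)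
  have hf : Function.Surjective f := fun x => by
    obtain ⟨t, rfl⟩ := residue_surjective x
    obtain ⟨o, ho⟩ := hres t
    exact ⟨o, (Ideal.Quotient.eq.mpr ho).symm⟩
  have hker : ∀ o ∈ RingHom.ker f, (Ideal.Quotient.mk N).comp (algebraMap O T) o = 0 := by
    intro o ho
    refine Ideal.Quotient.eq_zero_iff_mem.mpr (Ideal.mem_sup_left (hO o fun hu => ?_))
    exact (hu.map f).ne_zero ho
  let e : ResidueField T →+* T ⧸ N :=
    f.liftOfSurjective hf ⟨(Ideal.Quotient.mk N).comp (algebraMap O T), hker⟩
  have he : ∀ o, e (f o) = Ideal.Quotient.mk N (algebraMap O T o) := fun o =>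
    f.liftOfSurjective_comp_apply hf _ o
  let : Algebra (ResidueField T) (T ⧸ N) := e.toAlgebra
  let δ : T → T ⧸ N := fun t => Ideal.Quotient.mk N t - e (residue T t)
  have hδ : ∀ t, ∃ u ∈ maximalIdeal T, δ t = Ideal.Quotient.mk N u := fun t => by
    obtain ⟨o, ho⟩ := hres t
    refine ⟨_, ho, ?_⟩
    simp only [δ, show residue T t = f o from Ideal.Quotient.eq.mpr ho, he, map_sub]
  have hδm : ∀ t ∈ maximalIdeal T, δ t = Ideal.Quotient.mk N t := fun t ht => by
    simp only [δ, (residue_eq_zero_iff t).mpr ht, map_zero, sub_zero]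
  have hmul : ∀ t t', δ t * δ t' = 0 := fun t t' => by
    obtain ⟨u, hu, e1⟩ := hδ t
    obtain ⟨u', hu', e2⟩ := hδ t'
    rw [e1, e2, ← map_mul, Ideal.Quotient.eq_zero_iff_mem]
    exact Ideal.mem_sup_right (Ideal.mul_mem_mul hu hu')
  have hm0 : δ m ≠ 0 := fun h0 => hmN (Ideal.Quotient.eq_zero_iff_mem.mp (hδm m hm ▸ h0))
  obtain ⟨ℓ, hℓ⟩ := Module.Projective.exists_dual_ne_zero (ResidueField T) hm0
  have hℓmul : ∀ (c : ResidueField T) x, ℓ (e c * x) = c * ℓ x := fun c x => ℓ.map_smul c x
  let D0 : T →ₗ[O] ResidueField T :=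
    { toFun := fun t => ℓ (δ t)
      map_add' := fun a b => by
        rw [← map_add]; congr 1
        simp only [δ, map_add]; abel
      map_smul' := fun o a => by
        rw [RingHom.id_apply, show δ (o • a) = e (f o) * δ a by
          simp only [δ, Algebra.smul_def, map_mul, he,
            show residue T (algebraMap O T o) = f o from rfl]
          ring, hℓmul, Algebra.smul_def]
        rfl }
  let D : Derivation O T (ResidueField T) := Derivation.mk' D0 fun a b => by
    show ℓ (δ (a * b)) = residue T a * ℓ (δ b) + residue T b * ℓ (δ a)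
    have h1 : δ (a * b) = e (residue T a) * δ b + e (residue T b) * δ a + δ a * δ b := by
      simp only [δ, map_mul]; ring
    rw [h1, hmul, add_zero, map_add, hℓmul, hℓmul]
  have hzero : ∀ s ∈ S, D s = 0 := fun s hs => by
    show ℓ (δ s) = 0
    rw [hδm s (hS hs), Ideal.Quotient.eq_zero_iff_mem.mpr
      (Ideal.mem_sup_left (Ideal.subset_span hs)), map_zero]
  exact hℓ (DFunLike.congr_fun (h D hzero) m)

/-- Few functionals of a spanning family detect every vector. -/
theorem exists_separating {k V : Type} [Field k] [AddCommGroup V] [Module k V]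
    [FiniteDimensional k V]
    (M : Set (Module.Dual k V)) (g : ℕ) (hg : Module.finrank k V ≤ g) :
    ∃ x : Fin g → Module.Dual k V, (∀ i, x i ∈ M ∨ x i = 0) ∧
      ∀ v, (∀ i, x i v = 0) → ∀ φ ∈ M, φ v = 0 := by
  classical
  obtain ⟨f, hf, hspan, -⟩ := Submodule.exists_fun_fin_finrank_span_eq k M
  have hn : Module.finrank k (Submodule.span k M) ≤ g :=
    (Submodule.finrank_le _).trans (Subspace.dual_finrank_eq.trans_le hg)
  refine ⟨fun i => if h : (i : ℕ) < Module.finrank k (Submodule.span k M) then f ⟨i, h⟩ else 0,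
    fun i => ?_, fun v hv φ hφ => ?_⟩
  · dsimp only; split_ifs
    · exact Or.inl (hf _)
    · exact Or.inr rfl
  · have hle : Submodule.span k M ≤ LinearMap.ker (Module.Dual.eval k V v) := by
      rw [← hspan, Submodule.span_le]
      rintro _ ⟨i, rfl⟩
      simpa [i.2] using hv ⟨i, i.2.trans_le hn⟩
    exact hle (Submodule.subset_span hφ)

end FLTAgent.LevelLowering
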