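import Fermat.Agent.LevelLowering.Site.Newform
import Fermat.Agent.LevelLowering.Twist.Kernel
import Fermat.Agent.ModularityLifting.Points.Product
import Fermat.Agent.ModularityLifting.PointsDatum.NonEisenstein

/-!
# The trace functions and representations of points

An eigensymbol with a character that is a square gives, after twisting, a trace function with
cyclotomic determinant (`IsPointTrace`).  When the eigenvalues lift a residual representation the
trace function does, it lies on a newform (`exists_point_newform`), and finitely many of them are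
carried by one frame (`exists_pointsFrame`).  Used for the points of the core.
-/

set_option autoImplicit false

noncomputable section

open IsLocalRing Matrix CongruenceSubgroup ModularFormClass

namespace FLTAgent.LevelLowering

open FLTAgent.Density (GalQ Qbar)
open FLTAgent.DefRing FLTAgent.GaloisAttach FLTAgent.HeckePoints FLTAgent.ModularityLifting
  FLTAgent.LevelRaising

/-- The residual representation with its normalisation at complex conjugation. -/
structure ResidualRep (p : ℕ) (k : Type) [Field k] where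
  rep : MatRep k
  finite : ∃ L : IntermediateField ℚ Qbar, FiniteDimensional ℚ L ∧
    ∀ σ : GalQ, (∀ x ∈ L, σ x = x) → rep σ = 1
  det : DetCyclotomic rep p
  irr : AbsIrreducibleOn rep ⊤
  conj : rep complexConjugation = !![1, 0; 0, -1]
  r : GalQ
  s : GalQ
  hr : rep r 1 0 = 1
  hs : rep s 0 1 ≠ 0

namespace ResidualRep

variable {p : ℕ} {k : Type} [Field k] (R : ResidualRep p k)

theorem det_conj : (R.rep complexConjugation).det = -1 := by
  rw [R.conj, Matrix.det_fin_two]; simp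

/-- The system of eigenvalues avoids `1 + ℓ` at some `ℓ ≡ 1`. -/
theorem exists_ne_one_add [Fact p.Prime] [CharP k p] (hp2 : p ≠ 2) (S : Finset ℕ)
    {L : ℕ} (hL : L ≠ 0) :
    ∃ ℓ, ℓ.Prime ∧ ℓ ∉ S ∧ ℓ % L = 1 % L ∧
      ∀ P : ValuationSubring Qbar, P.LiesOverPrime ℓ → ∀ φ, P.IsFrobeniusAt φ ℓ →
        (R.rep φ).trace ≠ 1 + (ℓ : k) := by
  obtain ⟨ℓ, hℓ, hℓS, hmod, h⟩ := PointsDatum.exists_prime_trace_ne_two Fact.out hp2 R.rep R.finite
    R.det R.irr complexConjugation_mul_self R.det_conj (Nat.pos_of_ne_zero hL) S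
  refine ⟨ℓ, hℓ, hℓS, Nat.ModEq.of_dvd (dvd_mul_right L p) hmod, fun P hP φ hφ he => h P hP φ hφ ?_⟩
  have h1 : ((ℓ : ℕ) : k) = ((1 : ℕ) : k) :=
    (CharP.natCast_eq_natCast k p).mpr (Nat.ModEq.of_dvd (dvd_mul_left p L) hmod)
  rw [he, h1, Nat.cast_one, one_add_one_eq_two]

end ResidualRep

theorem absIrreducibleOn_map {k k' : Type} [Field k] [Field k'] (ι : k →+* k') {ρ : MatRep k}
    (h : AbsIrreducibleOn ρ ⊤) : AbsIrreducibleOn (mapRep ι ρ) ⊤ :=
  fun K _ ι' v hv => h K (ι'.comp ι) v fun σ hσ => by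
    obtain ⟨c, hc⟩ := hv σ hσ
    exact ⟨c, by rwa [mapRep_eq_map, Matrix.map_map] at hc⟩

variable {p : ℕ} [Fact p.Prime] {C : Type} [CommRing C] [IsDomain C] [IsDiscreteValuationRing C]
  [IsAdicComplete (maximalIdeal C) C]

/-- A trace function with cyclotomic determinant and given values at Frobenius elements. -/
structure IsPointTrace (hpC : (p : C) ∈ maximalIdeal C) (S : Finset ℕ) (c : ℕ → C)
    (f : GalQ → C) : Prop where
  pseudo : IsPseudoRep f (cycChar hpC)
  cont : TraceCont (maximalIdeal C) f (cycChar hpC)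
  conj : f complexConjugation = 0
  frob : ∀ l, l.Prime → l ∉ S → ∀ P : ValuationSubring Qbar, P.LiesOverPrime l →
    ∀ φ, P.IsFrobeniusAt φ l → f φ = c l

variable {hpC : (p : C) ∈ maximalIdeal C}

/-- Forgetting values. -/
theorem IsPointTrace.mono {S S' : Finset ℕ} {c : ℕ → C} {f : GalQ → C}
    (H : IsPointTrace hpC S c f) (h : S ⊆ S') : IsPointTrace hpC S' c f :=
  ⟨H.pseudo, H.cont, H.conj, fun l hl hlS => H.frob l hl fun hm => hlS (h hm)⟩

/-- The residue of a point trace. -/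
theorem IsPointTrace.residue_eq {S : Finset ℕ} {c : ℕ → C} {f : GalQ → C}
    (H : IsPointTrace hpC S c f) (hpS : p ∈ S) {k : Type} [Field k] [CharP k p]
    (R : ResidualRep p k) (ι : k →+* ResidueField C)
    (hc : ∀ l, l.Prime → l ∉ S → ∀ P : ValuationSubring Qbar, P.LiesOverPrime l →
      ∀ φ, P.IsFrobeniusAt φ l → residue C (c l) = ι (R.rep φ).trace) (g : GalQ) :
    residue C (f g) = ι (R.rep g).trace := by
  have hzero : ∀ (m : ℕ) (x : C), x ∈ maximalIdeal C ^ m →
      residue C x ∈ (⊥ : Ideal (ResidueField C)) ^ m := by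
    rintro (_ | m) x hx
    · simp
    · rw [Ideal.bot_pow (Nat.succ_ne_zero m), Ideal.mem_bot, residue_eq_zero_iff]
      exact Ideal.pow_le_self (Nat.succ_ne_zero m) hx
  have hc1 : TraceCont (⊥ : Ideal (ResidueField C)) (fun σ => residue C (f σ))
      ((residue C).toMonoidHom.comp (cycChar hpC)) := fun m => by
    obtain ⟨L, hL, h⟩ := H.cont m
    refine ⟨L, hL, fun σ hσ => ⟨?_, fun y => ?_⟩⟩
    · rw [MonoidHom.comp_apply, RingHom.toMonoidHom_eq_coe, MonoidHom.coe_coe,
        ← map_one (residue C), ← map_sub]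
      exact hzero m _ (h σ hσ).1
    · rw [← map_sub]
      exact hzero m _ ((h σ hσ).2 y)
  have hc2 : TraceCont (⊥ : Ideal (ResidueField C)) (fun σ => (mapRep ι R.rep σ).trace)
      (detChar (mapRep ι R.rep)) := fun m => by
    obtain ⟨L, hL, h⟩ := R.finite
    refine ⟨L, hL, fun σ hσ => ?_⟩
    have h1 : mapRep ι R.rep σ = 1 := by
      rw [mapRep_eq_map, h σ hσ, ← RingHom.mapMatrix_apply, map_one]
    refine ⟨?_, fun y => ?_⟩
    · rw [detChar_apply, h1, Matrix.det_one, sub_self]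
      exact zero_mem _
    · show (mapRep ι R.rep (y * σ)).trace - (mapRep ι R.rep y).trace ∈ _
      rw [map_mul, h1, mul_one, sub_self]
      exact zero_mem _
  refine (congrFun (eq_of_frobenius frobeniusDivisions (H.pseudo.map (residue C))
    (isPseudoRep_trace (mapRep ι R.rep)) hc1 hc2 S fun l hl hlS P hP φ hφ => ⟨?_, ?_⟩).1 g).trans ?_
  · rw [Function.comp_apply, H.frob l hl hlS P hP φ hφ, hc l hl hlS P hP φ hφ]
    exact AddMonoidHom.map_trace ι.toAddMonoidHom _
  · have hlp : l ≠ p := fun h => hlS (h ▸ hpS)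
    rw [MonoidHom.comp_apply, RingHom.toMonoidHom_eq_coe, MonoidHom.coe_coe,
      cycChar_frobenius hpC hl hlp hP hφ, map_natCast, detChar_apply,
      show (mapRep ι R.rep φ).det = ι (R.rep φ).det from (RingHom.map_det _ _).symm,
      PointsDatum.det_frobenius_residual Fact.out R.det hl hlp hP hφ, map_natCast]
  · exact (AddMonoidHom.map_trace ι.toAddMonoidHom _).symm

section Rep

variable {O : Type} [CommRing O] [IsDomain O] [IsDiscreteValuationRing O]
  [IsAdicComplete (maximalIdeal O) O] [Algebra O C] [Module.Finite O C]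
  [IsLocalHom (algebraMap O C)] {hpO : (p : O) ∈ maximalIdeal O}

omit [Module.Finite O C] in
theorem algebraMap_cycChar (hpO : (p : O) ∈ maximalIdeal O) :
    (algebraMap O C).toMonoidHom.comp (cycChar hpO) = cycChar hpC :=
  MonoidHom.ext fun g => map_cycChar hpO hpC (algebraMap O C)
    ((local_hom_TFAE (algebraMap O C)).out 0 3 |>.mp ‹_›) g

variable {X : Type} [Finite X] {S : Finset ℕ} {c : X → ℕ → C} {f : X → GalQ → C}
  (hf : ∀ x, IsPointTrace hpC S (c x) (f x))
include hf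

omit [Module.Finite O C] [Finite X] in
theorem isPseudoRep_family (hpO : (p : O) ∈ maximalIdeal O) (x : X) :
    IsPseudoRep (f x) ((algebraMap O C).toMonoidHom.comp (cycChar hpO)) := by
  rw [algebraMap_cycChar (hpC := hpC) hpO]
  exact (hf x).pseudo

/-- A frame carrying all the points. -/
theorem exists_pointsFrame [Nonempty X] (hp2 : p ≠ 2) (hpO : (p : O) ∈ maximalIdeal O)
    (R : ResidualRep p (ResidueField O))
    (hres : ∀ x g, residue C (f x g) = ResidueField.map (algebraMap O C) (R.rep g).trace) :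
    ∃ F : Frame (trVal O f) ((algebraMap O (trAlg O f)).toMonoidHom.comp (cycChar hpO)),
      F.γ = complexConjugation ∧ F.r = R.r ∧ F.α = 1 ∧ F.β = -1 := by
  refine exists_frame_trAlg ?_ (fun g => ?_) (fun x => (hf x).conj) ?_ R.rep (fun g x => hres x g)
    R.conj R.r R.s R.hr R.hs
  · rw [← residue_ne_zero_iff_isUnit, map_ofNat]
    intro h
    have : CharP (ResidueField O) p := (CharP.charP_iff_prime_eq_zero Fact.out).mpr
      (by rw [← map_natCast (residue O)]; exact (residue_eq_zero_iff _).mpr hpO)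
    have h' : ((2 : ℕ) : ResidueField O) = 0 := by exact_mod_cast h
    rw [CharP.cast_eq_zero_iff _ p] at h'
    exact hp2 ((Nat.prime_dvd_prime_iff_eq Fact.out Nat.prime_two).mp h')
  · obtain ⟨o, ho⟩ := residue_surjective (R.rep g).trace
    exact ⟨o, fun x => by
      rw [← residue_eq_zero_iff, map_sub, hres, ← ho, ResidueField.map_residue, sub_self]⟩
  · rw [cycChar_apply, cyc_complexConjugation, map_neg, map_one]

omit [Module.Finite O C] [Finite X] in
/-- The representation at a point. -/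
theorem ptRep_spec (hpO : (p : O) ∈ maximalIdeal O) (R : ResidualRep p (ResidueField O))
    (hres : ∀ x g, residue C (f x g) = ResidueField.map (algebraMap O C) (R.rep g).trace)
    {F : Frame (trVal O f) ((algebraMap O (trAlg O f)).toMonoidHom.comp (cycChar hpO))}
    (hγ : F.γ = complexConjugation) (hr : F.r = R.r) (hαβ : F.α = 1 ∧ F.β = -1) (x : X) :
    (∀ g, (ptRep (isPseudoRep_family hf hpO) F x g).trace = f x g) ∧
      (∀ g, (ptRep (isPseudoRep_family hf hpO) F x g).det = cycChar hpC g) ∧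
      MatCont (ptRep (isPseudoRep_family hf hpO) F x) ∧
      mapRep (residue C) (ptRep (isPseudoRep_family hf hpO) F x) =
        mapRep (ResidueField.map (algebraMap O C)) R.rep := by
  refine ⟨fun g => trace_ptRep _ F x g, fun g => ?_, matCont_ptRep _ F x ?_, ?_⟩
  · rw [det_ptRep, ← algebraMap_cycChar (hpC := hpC) hpO]
    rfl
  · rw [algebraMap_cycChar (hpC := hpC) hpO]
    exact (hf x).cont
  · exact residue_ptRep _ F hαβ R.rep x (hres x) (by rw [hγ]; exact R.conj)
      (by rw [hr]; exact R.hr)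

end Rep

/-- One point is carried by a representation. -/
theorem IsPointTrace.exists_rep {O : Type} [CommRing O] [IsDomain O] [IsDiscreteValuationRing O]
    [IsAdicComplete (maximalIdeal O) O] [Algebra O C] [Module.Finite O C]
    [IsLocalHom (algebraMap O C)] [CharP (ResidueField O) p] (hp2 : p ≠ 2)
    {S : Finset ℕ} {c : ℕ → C} {f : GalQ → C} (H : IsPointTrace hpC S c f) (hpS : p ∈ S)
    (hpO : (p : O) ∈ maximalIdeal O) (R : ResidualRep p (ResidueField O))
    (hc : ∀ l, l.Prime → l ∉ S → ∀ P : ValuationSubring Qbar, P.LiesOverPrime l →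
      ∀ φ, P.IsFrobeniusAt φ l →
        residue C (c l) = ResidueField.map (algebraMap O C) (R.rep φ).trace) :
    ∃ ρ : MatRep C, MatCont ρ ∧ (∀ g, (ρ g).det = cycChar hpC g) ∧ (∀ g, (ρ g).trace = f g) ∧
      mapRep (residue C) ρ = mapRep (ResidueField.map (algebraMap O C)) R.rep := by
  have hf : ∀ _ : Unit, IsPointTrace hpC S c f := fun _ => H
  have hres : ∀ (_ : Unit) g, residue C (f g) =
      ResidueField.map (algebraMap O C) (R.rep g).trace := fun _ g => H.residue_eq hpS R _ hc g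
  obtain ⟨F, hγ, hr, hαβ⟩ := exists_pointsFrame (f := fun _ : Unit => f) hf hp2 hpO R hres
  obtain ⟨h1, h2, h3, h4⟩ := ptRep_spec hf hpO R hres hγ hr hαβ ()
  exact ⟨_, h3, h2, h1, h4⟩

section Symbol

variable [CharZero C] [Finite (ResidueField C)] {K : Type} [Field K] [IsAlgClosed K] [CharZero K]
  (j : C →+* K) (hj : Function.Injective j)
include hj

omit [CharZero C] [Finite (ResidueField C)] in
/-- **An eigensymbol gives a point lying on a newform.** -/
theorem exists_point_newform (T : Finset ℕ) (hT : ∀ t ∈ T, t.Prime)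
    (χ : ∀ t, DirichletCharacter C t) (hχ : ∀ t ∈ T, χ t ^ 2 ≠ 1) {M L : ℕ} (hM0 : M ≠ 0)
    (hM : ∀ t ∈ T, ¬ t ∣ M) (hL : L = M * ∏ t ∈ T, t) (δ : DirichletCharacter C L)
    (hδ : ∀ d : ℤ, IsUnit (d : ZMod L) → δ (d : ZMod L) = ∏ t ∈ T, χ t (d : ZMod t) ^ 2)
    (S : Finset ℕ) (hpS : p ∈ S) (hS : ∀ l, l.Prime → l ∣ L → l ∈ S) (a : ℕ → C)
    {Φ : Cusp → Cusp → K} (hΦ : Φ ∈ SymbChar K (δ.ringHomComp j)) (hne0 : Φ ≠ 0)
    (ha : ∀ l, l.Prime → l ∉ S → tOpChar K (δ.ringHomComp j) l Φ = j (a l) • Φ)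
    (hp2 : p ≠ 2) {k : Type} [Field k] [CharP k p] (R : ResidualRep p k)
    (ι : k →+* ResidueField C) (S' : Finset ℕ) (hSS' : S ⊆ S')
    (hres : ∀ l, l.Prime → l ∉ S' → ∀ P : ValuationSubring Qbar, P.LiesOverPrime l →
      ∀ φ, P.IsFrobeniusAt φ l →
        residue C ((∏ t ∈ T, (χ t)⁻¹ (l : ZMod t)) * a l) = ι (R.rep φ).trace) :
    ∃ f, IsPointTrace hpC S (fun l => (∏ t ∈ T, (χ t)⁻¹ (l : ZMod t)) * a l) f ∧
      ∃ Ψ ∈ Lev K (M * ∏ t ∈ T, t ^ 2), Ψ ≠ 0 ∧
        (∀ l, l.Prime → l ∉ S →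
          tOp K l Ψ = j ((∏ t ∈ T, (χ t)⁻¹ (l : ZMod t)) * a l) • Ψ) ∧
        ∃ (M' : ℕ) (_ : NeZero M') (g : CuspForm (Gamma0 M') 2),
          M' ∣ M * ∏ t ∈ T, t ^ 2 ∧ ∀ ρ : MatRep C, MatCont ρ →
            (∀ σ, (ρ σ).det = cycChar hpC σ) → (∀ σ, (ρ σ).trace = f σ) →
            OnNewform hpC S ρ g := by
  classical
  set L' := M * ∏ t ∈ T, t ^ 2 with hL'
  have hL'0 : L' ≠ 0 :=
    mul_ne_zero hM0 (Finset.prod_ne_zero_iff.mpr fun t ht => pow_ne_zero _ (hT t ht).ne_zero)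
  have : NeZero L' := ⟨hL'0⟩
  set c : ℕ → C := fun l => (∏ t ∈ T, (χ t)⁻¹ (l : ZMod t)) * a l with hc
  let χK : ∀ t, DirichletCharacter K t := fun t => (χ t).ringHomComp j
  have hχK : ∀ t ∈ T, χK t ^ 2 ≠ 1 := fun t ht => by
    rw [MulChar.ringHomComp_pow]
    exact (MulChar.ringHomComp_ne_one_iff hj).mpr (hχ t ht)
  have hval : ∀ l, (∏ t ∈ T, (χK t)⁻¹ (l : ZMod t)) * j (a l) = j (c l) := fun l => by
    rw [hc, map_mul, map_prod]
    congr 1
    refine Finset.prod_congr rfl fun t _ => ?_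
    rw [MulChar.ringHomComp_inv, MulChar.ringHomComp_apply]
  have hS' : ∀ l, l.Prime → l ∣ L' → l ∈ S := fun l hl h => hS l hl (by
    rw [hL]
    rcases hl.dvd_mul.mp h with h | h
    · exact h.mul_right _
    · obtain ⟨t, ht, htl⟩ := hl.prime.exists_mem_finset_dvd h
      exact ((hl.dvd_of_dvd_pow htl).trans (Finset.dvd_prod_of_mem _ ht)).mul_left _)
  have hne : ∃ ℓ, ℓ.Prime ∧ ℓ ∉ S ∧ ℓ % L' = 1 % L' ∧ j (c ℓ) ≠ 1 + ℓ := by
    obtain ⟨ℓ, hℓ, hℓS', hmod, h⟩ := R.exists_ne_one_add hp2 S' hL'0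
    have hℓS : ℓ ∉ S := fun h' => hℓS' (hSS' h')
    obtain ⟨P, hP⟩ := Density.exists_liesOverPrime hℓ
    obtain ⟨φ, hφ⟩ := Density.exists_isFrobeniusAt P hℓ hP
    refine ⟨ℓ, hℓ, hℓS, hmod, fun he => h P hP φ hφ (ι.injective ?_)⟩
    have he' : c ℓ = 1 + ℓ := hj (by rw [he, map_add, map_one, map_natCast])
    rw [← hres ℓ hℓ hℓS' P hP φ hφ, show (∏ t ∈ T, (χ t)⁻¹ (ℓ : ZMod t)) * a ℓ = c ℓ from rfl, he']
    simp only [map_add, map_one, map_natCast]
  obtain ⟨Ψ, hΨ, hΨ0, hΨa, θ, hθ, A, hA⟩ := exists_twisted_trace (maximalIdeal C) hpC j hj T hT χK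
    hχK hM hL hL' (δ.ringHomComp j) (fun d hd => by
      rw [MulChar.ringHomComp_apply, hδ d hd, map_prod]
      exact Finset.prod_congr rfl fun t _ => map_pow j _ 2)
    S hS (fun l => j (a l)) hΦ hne0 ha (fun l _ _ => ⟨c l, (hval l).symm⟩)
    (by
      obtain ⟨ℓ, hℓ, hℓS, hmod, h⟩ := hne
      exact ⟨ℓ, hℓ, hℓS, hmod, by rw [hval]; exact h⟩)
  obtain ⟨h1, h2⟩ := traceCont_of_attached A
  have hpt : IsPointTrace hpC S c A.f := by
    refine ⟨hA ▸ h1, hA ▸ h2, A.conj.1, fun l hl hlS P hP φ hφ => ?_⟩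
    have hlL' : ¬ l ∣ L' := fun h => hlS (hS' l hl h)
    have hlS' : l ∉ (S : Set ℕ) := fun h => hlS (Finset.mem_coe.mp h)
    rw [(A.frob l hl hlL' hlS' (fun h => hlS (h ▸ hpS)) P hP φ hφ).1]
    exact hj ((hθ l hl hlL' hlS').trans (hval l))
  have hΨc : ∀ l, l.Prime → l ∉ S → tOp K l Ψ = j (c l) • Ψ := fun l hl hlS => by
    rw [hΨa l hl hlS, hval]
  obtain ⟨M', g, F, e, hM', hg, hcoeff⟩ := exists_newform_of_eigensymbol hΨ hΨ0 S hS'
    (fun l => j (c l)) hΨc hne
  have : NeZero M' := ⟨fun h => hL'0 (by rw [h] at hM'; exact zero_dvd_iff.mp hM')⟩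
  exact ⟨A.f, hpt, Ψ, hΨ, hΨ0, hΨc, M', inferInstance, g, hM', fun ρ hρ hdet htr =>
    onNewform_of_coeff j hj hg hpS (fun q hq hqM => hS' q hq (hqM.trans hM')) hρ hdet e c hcoeff
      fun l hl hlS P hP φ hφ => by rw [htr, hpt.frob l hl hlS P hP φ hφ]⟩

end Symbol

end FLTAgent.LevelLowering
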